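import Mathlib

/-!
# W7 (B3a), part 1 (helper19): automorphisms of an algebraically closed field move transcendentals

`Ω` algebraically closed, `K ⊆ Ω` a subfield.

* `h19_exists_aut_add_one` : for `t` transcendental over `K` there is `σ ∈ Aut(Ω/K)` with
  `σ t = t + 1`;
* `h19_isAlgebraic_of_subgroup` : an element fixed by a finite-index subgroup of `Aut(Ω/K)` is
  algebraic over `K` (characteristic zero);
* `h19_isAlgebraic_of_finite_orbit` : an element with finite `Aut(Ω/K)`-orbit is algebraic.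
-/

set_option autoImplicit false
set_option linter.style.haveILetI false
set_option linter.unusedSectionVars false

open MvPolynomial

noncomputable section

namespace Fermat.Agent.S42x.Desc.H19

section Shift

variable (K : Type*) [CommRing K] (ι : Type*) [DecidableEq ι]

/-- the shift `X_i ↦ X_i + c_i` of a polynomial ring. -/
def h19ShiftHom (c : ι → K) : MvPolynomial ι K →ₐ[K] MvPolynomial ι K :=
  MvPolynomial.aeval fun i => X i + C (c i)

@[simp]
theorem h19ShiftHom_X (c : ι → K) (i : ι) : h19ShiftHom K ι c (X i) = X i + C (c i) := by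
  simp [h19ShiftHom]

/-- the shift `X_i ↦ X_i + c_i` as an automorphism. -/
def h19Shift (c : ι → K) : MvPolynomial ι K ≃ₐ[K] MvPolynomial ι K :=
  AlgEquiv.ofAlgHom (h19ShiftHom K ι c) (h19ShiftHom K ι (fun i => - c i))
    (by
      ext i
      simp [h19ShiftHom])
    (by
      ext i
      simp [h19ShiftHom])

@[simp]
theorem h19Shift_X (c : ι → K) (i : ι) : h19Shift K ι c (X i) = X i + C (c i) := by
  simp [h19Shift]

end Shift

section Aut

variable {K Ω : Type*} [Field K] [Field Ω] [Algebra K Ω] [IsAlgClosed Ω]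

/-- **Automorphisms move transcendentals**: for `t` transcendental over `K` there is an
automorphism of `Ω` over `K` with `σ t = t + 1`. -/
theorem h19_exists_aut_add_one (t : Ω) (ht : Transcendental K t) :
    ∃ σ : Ω ≃ₐ[K] Ω, σ t = t + 1 := by
  classical
  -- a transcendence basis containing `t`
  have hind : AlgebraicIndepOn K id ({t} : Set Ω) := by
    have : AlgebraicIndependent K (fun x : ({t} : Set Ω) => (x : Ω)) := by
      rw [algebraicIndependent_singleton_iff (⟨t, rfl⟩ : ({t} : Set Ω))]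
      exact ht
    exact this
  obtain ⟨B, htB, hB⟩ := exists_isTranscendenceBasis_superset hind
  have htB' : t ∈ B := htB rfl
  set v : B → Ω := fun b => (b : Ω) with hv
  haveI hcl : IsAlgClosure (Algebra.adjoin K (Set.range v)) Ω :=
    IsAlgClosed.isAlgClosure_of_transcendence_basis v hB
  -- the shift
  let c : B → K := fun b => if (b : Ω) = t then 1 else 0
  let e0 : Algebra.adjoin K (Set.range v) ≃ₐ[K] Algebra.adjoin K (Set.range v) :=
    (hB.1.aevalEquiv.symm.trans (h19Shift K B c)).trans hB.1.aevalEquiv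
  let σ0 : Ω ≃+* Ω := IsAlgClosure.equivOfEquiv Ω Ω e0.toRingEquiv
  have hσ0 : ∀ s : Algebra.adjoin K (Set.range v),
      σ0 (algebraMap (Algebra.adjoin K (Set.range v)) Ω s) =
        algebraMap (Algebra.adjoin K (Set.range v)) Ω (e0 s) := fun s =>
    IsAlgClosure.equivOfEquiv_algebraMap Ω Ω e0.toRingEquiv s
  have hcomm : ∀ a : K, σ0 (algebraMap K Ω a) = algebraMap K Ω a := by
    intro a
    have h1 : algebraMap K Ω a = algebraMap (Algebra.adjoin K (Set.range v)) Ω
        (algebraMap K (Algebra.adjoin K (Set.range v)) a) := rfl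
    rw [h1, hσ0, e0.commutes]
  refine ⟨AlgEquiv.ofRingEquiv (f := σ0) hcomm, ?_⟩
  show σ0 t = t + 1
  have h2 : t = algebraMap (Algebra.adjoin K (Set.range v)) Ω
      (hB.1.aevalEquiv (X ⟨t, htB'⟩)) := by
    rw [AlgebraicIndependent.algebraMap_aevalEquiv, aeval_X]
  have h3 : e0 (hB.1.aevalEquiv (X ⟨t, htB'⟩)) =
      hB.1.aevalEquiv (X ⟨t, htB'⟩ + C 1) := by
    show hB.1.aevalEquiv (h19Shift K B c (hB.1.aevalEquiv.symm (hB.1.aevalEquiv (X ⟨t, htB'⟩)))) = _
    rw [AlgEquiv.symm_apply_apply, h19Shift_X]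
    simp [c]
  calc σ0 t = σ0 (algebraMap (Algebra.adjoin K (Set.range v)) Ω
        (hB.1.aevalEquiv (X ⟨t, htB'⟩))) := by rw [← h2]
    _ = algebraMap (Algebra.adjoin K (Set.range v)) Ω
        (hB.1.aevalEquiv (X ⟨t, htB'⟩ + C 1)) := by rw [hσ0, h3]
    _ = t + 1 := by
        rw [AlgebraicIndependent.algebraMap_aevalEquiv, map_add, aeval_X, aeval_C, map_one]

variable [CharZero Ω]

/-- `σ t = t + 1` implies `σ ^ n t = t + n`. -/
theorem h19_pow_apply (σ : Ω ≃ₐ[K] Ω) (t : Ω) (h : σ t = t + 1) (n : ℕ) :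
    (σ ^ n) t = t + n := by
  induction n with
  | zero => simp
  | succ n ih =>
    rw [pow_succ, AlgEquiv.mul_apply, h, map_add, ih, map_one]
    push_cast
    ring

/-- **An element fixed by a finite-index subgroup of `Aut(Ω/K)` is algebraic over `K`.** -/
theorem h19_isAlgebraic_of_subgroup (U : Subgroup (Ω ≃ₐ[K] Ω)) (hU : U.index ≠ 0) (t : Ω)
    (hfix : ∀ σ ∈ U, σ t = t) : IsAlgebraic K t := by
  by_contra ht
  obtain ⟨σ, hσ⟩ := h19_exists_aut_add_one (K := K) t ht
  obtain ⟨n, hn, -, hmem⟩ := Subgroup.exists_pow_mem_of_index_ne_zero hU σ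
  have h1 := hfix _ hmem
  rw [h19_pow_apply σ t hσ n] at h1
  have h2 : ((n : ℕ) : Ω) = 0 := by
    have := congrArg (fun x => x - t) h1
    simpa using this
  have h3 : n = 0 := by exact_mod_cast h2
  omega

/-- **An element with finite `Aut(Ω/K)`-orbit is algebraic over `K`.** -/
theorem h19_isAlgebraic_of_finite_orbit (t : Ω)
    (hfin : (Set.range fun σ : Ω ≃ₐ[K] Ω => σ t).Finite) : IsAlgebraic K t := by
  by_contra ht
  obtain ⟨σ, hσ⟩ := h19_exists_aut_add_one (K := K) t ht
  have hinj : Function.Injective fun n : ℕ => (σ ^ n) t := by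
    intro n m hnm
    simp only [h19_pow_apply σ t hσ] at hnm
    have : ((n : ℕ) : Ω) = m := add_left_cancel hnm
    exact_mod_cast this
  have hsub : Set.range (fun n : ℕ => (σ ^ n) t) ⊆ Set.range fun σ : Ω ≃ₐ[K] Ω => σ t := by
    rintro _ ⟨n, rfl⟩
    exact ⟨σ ^ n, rfl⟩
  exact (Set.infinite_range_of_injective hinj) (hfin.subset hsub)

end Aut

end Fermat.Agent.S42x.Desc.H19
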