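import Fermat.Agent.S42x.Desc.H26_DescAbs
import Fermat.Agent.S42x.Desc.H19_Aut
import Fermat.Agent.S42x.Root.H9_Fin
import Fermat.Agent.S42x.Kum.H21_Root8
import Fermat.Agent.S42x.Kum.H12_Base
import Fermat.Agent.S18x.E.H12_Div

/-!
# W7 / (B3) [DESC] (helper26), part 4: the descent from `F_ℂ` to `F_ℚ̄`

`h26_desc` : a modular function `fC ∈ F_ℂ = FK ℂ N` whose divisor is divisible by `p` is, up to
a `p`-th power, the base change of a function `f ∈ F_ℚ̄ = modularFunctionFieldBar N`: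
`fC = baseF e N f * h ^ p`.

This is `desc_abs` for `L = ℂ`, `G = Aut(ℂ / e(ℚ̄))`, `k₀ = e(ℚ̄)`:
* `hfix` : an element `t ∉ e(ℚ̄)` is transcendental over `ℚ̄`, and some `σ ∈ G` has
  `σ t = t + 1` (helper19's `h19_exists_aut_add_one`);
* `hfin` : helper9's finiteness `h9_selmer_finite` (the conjugates of `fC` have `p`-divisible
  divisor too);
* a series of `F_ℂ` with coefficients in `e(ℚ̄)` lies in `F_ℚ̄` (helper21's (LD)).
-/

set_option autoImplicit false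
set_option linter.unusedSectionVars false
set_option linter.style.haveILetI false
set_option maxHeartbeats 1000000

open AlgebraicCurve ModularCurve IntermediateField
open Fermat.Agent.S24.Real

noncomputable section

namespace Fermat.Agent.S42x.Desc.H26

/-- The automorphisms of `ℂ` fixing `e(ℚ̄)` pointwise. -/
def fixG (e : AlgebraicClosure ℚ →+* ℂ) : Subgroup (ℂ ≃ₐ[ℚ] ℂ) where
  carrier := {σ | ∀ a, σ (e a) = e a}
  mul_mem' := fun {σ τ} hσ hτ a => by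
    show σ (τ (e a)) = e a
    rw [hτ a, hσ a]
  one_mem' := fun _ => rfl
  inv_mem' := fun {σ} hσ a => by
    show σ.symm (e a) = e a
    rw [AlgEquiv.symm_apply_eq]
    exact (hσ a).symm

theorem mem_fixG (e : AlgebraicClosure ℚ →+* ℂ) (σ : ℂ ≃ₐ[ℚ] ℂ) :
    σ ∈ fixG e ↔ ∀ a, σ (e a) = e a := Iff.rfl

/-- **(hfix)** an element outside `e(ℚ̄)` has infinitely many conjugates under `Aut(ℂ / e(ℚ̄))`. -/
theorem hfix_C (e : AlgebraicClosure ℚ →+* ℂ) (t : ℂ) (ht : t ∉ Set.range e) (m : ℕ) :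
    ∃ σ : Fin (m + 1) → (ℂ ≃ₐ[ℚ] ℂ),
      (∀ i, σ i ∈ fixG e) ∧ Function.Injective fun i => σ i t := by
  letI : Algebra (AlgebraicClosure ℚ) ℂ := e.toAlgebra
  have htr : Transcendental (AlgebraicClosure ℚ) t := by
    intro halg
    apply ht
    obtain ⟨a, ha⟩ := Fermat.Agent.S42x.Kum.H21.h21_mem_range_of_isIntegral
      (K := AlgebraicClosure ℚ) t halg.isIntegral
    exact ⟨a, ha⟩
  obtain ⟨σ, hσ⟩ := Fermat.Agent.S42x.Desc.H19.h19_exists_aut_add_one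
    (K := AlgebraicClosure ℚ) t htr
  refine ⟨fun i => AlgEquiv.ofRingEquiv (f := (σ ^ (i : ℕ)).toRingEquiv)
    (fun q => by simp), fun i a => ?_, ?_⟩
  · show (σ ^ (i : ℕ)) (e a) = e a
    exact (σ ^ (i : ℕ)).commutes a
  · intro i j hij
    have hi : (σ ^ (i : ℕ)) t = (σ ^ (j : ℕ)) t := hij
    rw [Fermat.Agent.S42x.Desc.H19.h19_pow_apply σ t hσ,
      Fermat.Agent.S42x.Desc.H19.h19_pow_apply σ t hσ] at hi
    have h2 : ((i : ℕ) : ℂ) = ((j : ℕ) : ℂ) := add_left_cancel hi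
    exact Fin.ext (by exact_mod_cast h2)

/-- The `j`-function is fixed by the coefficientwise action. -/
theorem act_jF (N : ℕ) [NeZero N] (σ : ℂ ≃ₐ[ℚ] ℂ) :
    act (modularFunctionFieldFull N) σ (Fermat.Agent.S24.Final.jF ℂ N)
      = Fermat.Agent.S24.Final.jF ℂ N := by
  apply Subtype.ext
  rw [coe_act, Fermat.Agent.S24.Final.jF_eq]
  exact coeffMap_coeffEmb σ jq

/-- The `j`-function has a pole at `q = 0`. -/
theorem qord_jF_ne_zero (N : ℕ) [NeZero N] :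
    qord (Fermat.Agent.S24.Final.jF ℂ N) ≠ 0 := by
  have h1 : ((Fermat.Agent.S24.Final.jF ℂ N : FK ℂ N) : LaurentSeries ℂ).coeff (-1) ≠ 0 := by
    rw [Fermat.Agent.S24.Final.jF_eq]
    show (coeffEmb ℂ jq).coeff (-1) ≠ 0
    rw [coeffEmb_coeff, coeff_jq_neg_one, map_one]
    exact one_ne_zero
  have h2 : qord (Fermat.Agent.S24.Final.jF ℂ N) ≤ -1 :=
    HahnSeries.order_le_of_coeff_ne_zero h1
  omega

/-- **(hfin)** in the orbit form. -/
theorem hfin_C (N : ℕ) [NeZero N] (p : ℕ) (hp : p ≠ 0) (fC : FK ℂ N) (hf : fC ≠ 0)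
    (hdiv : ∀ v : Place ℂ (FK ℂ N), (p : ℤ) ∣ v.ord fC) :
    ∃ 𝒮 : Finset (FK ℂ N), ∀ σ : ℂ ≃ₐ[ℚ] ℂ, ∃ s ∈ 𝒮, ∃ h : FK ℂ N, h ≠ 0 ∧
      act (modularFunctionFieldFull N) σ fC = s * h ^ p := by
  obtain ⟨𝒮, h𝒮⟩ := Fermat.Agent.S42x.Root.H9.h9_selmer_finite N p hp
  refine ⟨𝒮, fun σ => h𝒮 _ (act_ne_zero _ σ hf) fun v => ?_⟩
  rw [ord_act]
  exact hdiv _

/-- A Laurent series over `ℂ` with coefficients in `e(ℚ̄)` is the image of a series over `ℚ̄`. -/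
theorem exists_coeffMap_eq (e : AlgebraicClosure ℚ →+* ℂ) (g : LaurentSeries ℂ)
    (hg : ∀ k : ℤ, g.coeff k ∈ Set.range e) :
    ∃ y : LaurentSeries (AlgebraicClosure ℚ), coeffMap e y = g := by
  let r : ZeroHom ℂ (AlgebraicClosure ℚ) :=
    { toFun := Function.invFun e
      map_zero' := by
        have := Function.leftInverse_invFun e.injective (0 : AlgebraicClosure ℚ)
        rwa [map_zero] at this }
  refine ⟨g.map r, ?_⟩
  ext n
  rw [coeffMap_coeff, HahnSeries.map_coeff]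
  exact Function.invFun_eq (hg n)

/-- **(B3) [DESC]** a modular function over `ℂ` with `p`-divisible divisor is, up to a `p`-th
power, defined over `ℚ̄`. -/
theorem h26_desc (N : ℕ) [NeZero N] (p : ℕ) (hp : p ≠ 0) (e : AlgebraicClosure ℚ →+* ℂ)
    (fC : FK ℂ N) (hf : fC ≠ 0) (hdiv : ∀ v : Place ℂ (FK ℂ N), (p : ℤ) ∣ v.ord fC) :
    ∃ (f : modularFunctionFieldBar N) (h : FK ℂ N), f ≠ 0 ∧ h ≠ 0 ∧
      fC = Fermat.Agent.S42x.Kum.H12.baseF e N f * h ^ p := by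
  haveI hfd : FiniteDimensional ℂ⟮Fermat.Agent.S24.Final.jF ℂ N⟯ (FK ℂ N) :=
    Fermat.Agent.S24.Final.finiteDimensional_jF (K := ℂ) (RingHom.id ℂ) N
  have htr := Fermat.Agent.S24.Final.transcendental_jF ℂ N
  haveI hpd : HasPrincipalDivisors ℂ (FK ℂ N) :=
    Fermat.Agent.S18x.E.H12.h12_hasPrincipalDivisors (Fermat.Agent.S24.Final.jF ℂ N) htr
  have hj0 : Fermat.Agent.S24.Final.jF ℂ N ≠ 0 := by
    intro h0
    apply htr
    rw [h0]
    exact isAlgebraic_zero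
  obtain ⟨𝒮, h𝒮⟩ := hfin_C N p hp fC hf hdiv
  obtain ⟨g₁, h, hh, hcoe, hfg⟩ := desc_abs (L := ℂ) (modularFunctionFieldFull N) p
    (Nat.pos_of_ne_zero hp) (fixG e) (Set.range e) (hfix_C e)
    (fun v => Fermat.Agent.S24.Alg.deg_eq_one (Fermat.Agent.S24.Final.jF ℂ N) htr v)
    ⟨Fermat.Agent.S24.Final.jF ℂ N, hj0, qord_jF_ne_zero N⟩
    (Fermat.Agent.S24.Final.jF ℂ N) hj0
    (fun σ _ => act_jF N σ)
    (fun a => IsAlgClosed.exists_pow_nat_eq a (Nat.pos_of_ne_zero hp))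
    fC hf 𝒮 (fun σ _ => h𝒮 σ)
  have hg₁0 : g₁ ≠ 0 := by
    rintro rfl
    rw [zero_mul] at hfg
    exact hf hfg
  obtain ⟨y, hy⟩ := exists_coeffMap_eq e (g₁ : LaurentSeries ℂ) hcoe
  have hymem : y ∈ modularFunctionFieldBar N :=
    Fermat.Agent.S42x.Kum.H21.h21_mem_of_coeffMap_mem e N y (hy.symm ▸ g₁.2)
  have hbase : Fermat.Agent.S42x.Kum.H12.baseF e N ⟨y, hymem⟩ = g₁ := by
    apply Subtype.ext
    rw [Fermat.Agent.S42x.Kum.H12.coe_baseF]
    exact hy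
  refine ⟨⟨y, hymem⟩, h, ?_, hh, ?_⟩
  · intro h0
    apply hg₁0
    rw [← hbase, h0, map_zero]
  · rw [hbase]
    exact hfg

end Fermat.Agent.S42x.Desc.H26
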