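import Fermat.Agent.S42x.Desc.H19_AutPlace

/-!
# W7 (B3a), part 3 (helper19): the stabiliser of a class with finite orbit has finite index

* `h19_exists_subgroup_of_finite_classes` : `G` acting on `Y`, `R` a `G`-invariant equivalence
  relation on `Y`, `y₀ : Y` whose orbit meets finitely many classes: the stabiliser
  `{σ | R (σ • y₀) y₀}` of the class of `y₀` is a subgroup of finite index;
* `h19_powRel` : the relation `y' = y * h ^ p` (`h ≠ 0`) on a field;
* `h19_exists_subgroup_pow` : for `f ∈ F_L` whose `Aut(L/K)`-orbit meets finitely many classes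
  modulo `p`-th powers, `H := {σ | σ f ∈ f * (F_L^×)^p}` is a subgroup of finite index of
  `Aut(L/K)`, and every element of `L` fixed by `H` is algebraic over `K`.
-/

set_option autoImplicit false
set_option linter.style.haveILetI false
set_option linter.unusedSectionVars false

open AlgebraicCurve ModularCurve HahnSeries

noncomputable section

namespace Fermat.Agent.S42x.Desc.H19

section Abstract

variable {G Y : Type*} [Group G] [MulAction G Y]

/-- **The stabiliser of a class with finite orbit is a subgroup of finite index.** -/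
theorem h19_exists_subgroup_of_finite_classes (R : Y → Y → Prop) (hR : Equivalence R)
    (hinv : ∀ (σ : G) (y y' : Y), R y y' → R (σ • y) (σ • y')) (y₀ : Y) (𝒮 : Finset Y)
    (h𝒮 : ∀ σ : G, ∃ s ∈ 𝒮, R (σ • y₀) s) :
    ∃ H : Subgroup G, H.index ≠ 0 ∧ ∀ σ : G, σ ∈ H ↔ R (σ • y₀) y₀ := by
  classical
  let H : Subgroup G :=
    { carrier := {σ | R (σ • y₀) y₀}
      one_mem' := by
        show R ((1 : G) • y₀) y₀
        rw [one_smul]
        exact hR.refl y₀
      mul_mem' := by
        intro σ τ hσ hτ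
        show R ((σ * τ) • y₀) y₀
        rw [mul_smul]
        exact hR.trans (hinv σ _ _ hτ) hσ
      inv_mem' := by
        intro σ hσ
        show R (σ⁻¹ • y₀) y₀
        have h1 := hinv σ⁻¹ _ _ hσ
        rw [inv_smul_smul] at h1
        exact hR.symm h1 }
  refine ⟨H, ?_, fun σ => Iff.rfl⟩
  -- `G ⧸ H` injects into `𝒮`
  have hchoose : ∀ q : G ⧸ H, ∃ s : 𝒮, R (q.out • y₀) (s : Y) := by
    intro q
    obtain ⟨s, hs, hRs⟩ := h𝒮 q.out
    exact ⟨⟨s, hs⟩, hRs⟩
  choose f hf using hchoose
  have hinj : Function.Injective f := by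
    intro q q' hqq'
    have h1 : R (q.out • y₀) (q'.out • y₀) := by
      have h2 := hf q
      have h3 := hf q'
      rw [hqq'] at h2
      exact hR.trans h2 (hR.symm h3)
    have h4 : q'.out⁻¹ * q.out ∈ H := by
      show R ((q'.out⁻¹ * q.out) • y₀) y₀
      rw [mul_smul]
      have h5 := hinv q'.out⁻¹ _ _ h1
      rw [inv_smul_smul] at h5
      exact h5
    have h6 : (q'.out : G ⧸ H) = (q.out : G ⧸ H) := QuotientGroup.eq.2 h4
    rw [QuotientGroup.out_eq', QuotientGroup.out_eq'] at h6
    exact h6.symm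
  haveI : Finite (G ⧸ H) := Finite.of_injective f hinj
  exact Subgroup.index_ne_zero_of_finite

end Abstract

section Pow

variable {F : Type*} [Field F]

/-- `y'` and `y` differ by a non-zero `p`-th power. -/
def h19_powRel (p : ℕ) (y y' : F) : Prop := ∃ h : F, h ≠ 0 ∧ y = y' * h ^ p

theorem h19_powRel_equivalence (p : ℕ) : Equivalence (h19_powRel (F := F) p) where
  refl y := ⟨1, one_ne_zero, by rw [one_pow, mul_one]⟩
  symm := by
    rintro y y' ⟨h, hh, rfl⟩
    refine ⟨h⁻¹, inv_ne_zero hh, ?_⟩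
    rw [inv_pow, mul_assoc, mul_inv_cancel₀ (pow_ne_zero p hh), mul_one]
  trans := by
    rintro y y' y'' ⟨h, hh, rfl⟩ ⟨h', hh', rfl⟩
    exact ⟨h' * h, mul_ne_zero hh' hh, by rw [mul_pow, mul_assoc]⟩

end Pow

section Modular

variable {K L : Type*} [Field K] [Field L] [Algebra ℚ K] [Algebra ℚ L] [Algebra K L]
  [IsScalarTower ℚ K L]
variable {F₀ : IntermediateField ℚ (LaurentSeries ℚ)}

/-- **The stabiliser of the class of `f` modulo `p`-th powers**: if the `Aut(L/K)`-orbit of
`f ∈ F_L` meets only finitely many classes modulo `p`-th powers, then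
`H := {σ | σ f ∈ f * (F_L^×)^p}` is a subgroup of finite index, and every element of `L` fixed
by `H` is algebraic over `K`. -/
theorem h19_exists_subgroup_pow [IsAlgClosed L] [CharZero L] (p : ℕ)
    (f : laurentBaseChange L F₀) (𝒮 : Finset (laurentBaseChange L F₀))
    (h𝒮 : ∀ σ : L ≃ₐ[K] L, ∃ s ∈ 𝒮, ∃ h : laurentBaseChange L F₀, h ≠ 0 ∧
      h19AutHom F₀ σ • f = s * h ^ p) :
    ∃ H : Subgroup (L ≃ₐ[K] L), H.index ≠ 0 ∧
      (∀ σ : L ≃ₐ[K] L, σ ∈ H ↔ ∃ h : laurentBaseChange L F₀, h ≠ 0 ∧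
        h19AutHom F₀ σ • f = f * h ^ p) ∧
      ∀ t : L, (∀ σ ∈ H, σ t = t) → IsAlgebraic K t := by
  letI : MulAction (L ≃ₐ[K] L) (laurentBaseChange L F₀) :=
    MulAction.compHom _ (h19AutHom (K := K) F₀)
  have hsmul : ∀ (σ : L ≃ₐ[K] L) (y : laurentBaseChange L F₀),
      σ • y = h19AutHom F₀ σ • y := fun _ _ => rfl
  obtain ⟨H, hH, hmem⟩ := h19_exists_subgroup_of_finite_classes
    (G := L ≃ₐ[K] L) (h19_powRel (F := laurentBaseChange L F₀) p)
    (h19_powRel_equivalence p)
    (by
      rintro σ y y' ⟨h, hh, rfl⟩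
      refine ⟨h19AutHom F₀ σ • h, ?_, ?_⟩
      · intro h0
        apply hh
        have := congrArg (fun z => (h19AutHom F₀ σ)⁻¹ • z) h0
        simpa using this
      · rw [hsmul, hsmul, smul_mul', smul_pow'])
    f 𝒮 h𝒮
  exact ⟨H, hH, hmem, fun t ht => h19_isAlgebraic_of_subgroup H hH t ht⟩

end Modular

end Fermat.Agent.S42x.Desc.H19
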