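import Fermat.Agent.S42x.Desc.H19_Aut
import Fermat.Prelude.Def_ModularCurve_ArithmeticGalois
import Fermat.Agent.S24.H15_Kaehler

/-!
# W7 (B3a), part 2 (helper19): the action of `Aut(L/K)` on the places of `F_L` and their values

`L` a field of characteristic zero (`ℂ`), `K ⊆ L` a subfield (`ℚ̄`), `F₀ ⊆ ℚ((q))`,
`F_L := laurentBaseChange L F₀` (`= S24.Real.FK L N` for `F₀ = modularFunctionFieldFull N`).

* `h19AutHom F₀ : (L ≃ₐ[K] L) →* SemilinearAut L F_L` : the coefficientwise action (the prelude's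
  `arithmeticGalois` restricted to `Aut(L/K)`);
* `h19_ord_smul_sub` : `(g • P).ord (g • x - C (g c)) = P.ord (x - C c)`;
* `h19_value_smul`, `h19_pole_smul` : the values and poles of a function with rational
  coefficients are equivariant;
* `h19_value_isAlgebraic` : a place fixed by a finite-index subgroup of `Aut(L/K)` has values
  algebraic over `K` at all functions with rational coefficients;
* `h19_exists_stabiliser` : a place in a finite set stable under a finite-index subgroup is fixed
  by a finite-index subgroup; `h19_support_value_isAlgebraic` : the places in the support of a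
  divisor fixed by a finite-index subgroup have algebraic values.
-/

set_option autoImplicit false
set_option linter.style.haveILetI false
set_option linter.unusedSectionVars false

open AlgebraicCurve ModularCurve HahnSeries

noncomputable section

namespace Fermat.Agent.S42x.Desc.H19

section Generic

variable {L F : Type*} [Field L] [Field F] [Algebra L F]

/-- equivariance of the order of `x - c`. -/
theorem h19_ord_smul_sub (g : SemilinearAut L F) (P : Place L F) (x : F) (c : L) :
    (g • P).ord (g • x - algebraMap L F (SemilinearAut.baseAut g c)) =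
      P.ord (x - algebraMap L F c) := by
  rw [← SemilinearAut.ord_smul g P (x - algebraMap L F c), smul_sub,
    SemilinearAut.smul_algebraMap]

/-- **A place in a finite set stable under a finite-index subgroup is fixed by a finite-index
subgroup.** -/
theorem h19_exists_stabiliser {G : Type*} [Group G] {X : Type*} [MulAction G X]
    (U : Subgroup G) (hU : U.index ≠ 0) (S : Finset X) (hS : ∀ σ ∈ U, ∀ P ∈ S, σ • P ∈ S) :
    ∃ U' : Subgroup G, U'.index ≠ 0 ∧ U' ≤ U ∧ ∀ σ ∈ U', ∀ P ∈ S, σ • P = P := by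
  classical
  -- the action of `U` on `S`
  letI : MulAction U S :=
    { smul := fun σ P => ⟨(σ : G) • (P : X), hS σ σ.2 P P.2⟩
      one_smul := fun P => Subtype.ext (one_smul G (P : X))
      mul_smul := fun σ τ P => Subtype.ext (mul_smul (σ : G) (τ : G) (P : X)) }
  let φ : U →* Equiv.Perm S := MulAction.toPermHom U S
  have hker : φ.ker.index ≠ 0 := by
    haveI : Finite (Equiv.Perm S) := inferInstance
    haveI : Finite (U ⧸ φ.ker) :=
      Finite.of_equiv _ (QuotientGroup.quotientKerEquivRange φ).toEquiv.symm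
    exact Subgroup.index_ne_zero_of_finite
  refine ⟨φ.ker.map U.subtype, ?_, ?_, ?_⟩
  · rw [Subgroup.index_map_subtype]
    exact mul_ne_zero hker hU
  · rintro _ ⟨σ, -, rfl⟩
    exact σ.2
  · rintro _ ⟨σ, hσ, rfl⟩ P hP
    have h1 : φ σ = 1 := hσ
    have h2 := congrArg (fun f : Equiv.Perm S => ((f ⟨P, hP⟩ : S) : X)) h1
    exact h2

end Generic

section Modular

variable {K L : Type*} [Field K] [Field L] [Algebra ℚ K] [Algebra ℚ L] [Algebra K L]
  [IsScalarTower ℚ K L]
variable (F₀ : IntermediateField ℚ (LaurentSeries ℚ))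

/-- The coefficientwise action of `Aut(L/K)` on `F_L`. -/
def h19AutHom : (L ≃ₐ[K] L) →* SemilinearAut L (laurentBaseChange L F₀) :=
  (arithmeticGalois F₀).comp (AlgEquiv.restrictScalarsHom ℚ)

theorem h19AutHom_apply (σ : L ≃ₐ[K] L) :
    h19AutHom F₀ σ = arithmeticGalois F₀ (σ.restrictScalars ℚ) := rfl

@[simp]
theorem h19_baseAut_autHom (σ : L ≃ₐ[K] L) (c : L) :
    SemilinearAut.baseAut (h19AutHom F₀ σ) c = σ c := rfl

theorem h19_coe_autHom_smul (σ : L ≃ₐ[K] L) (x : laurentBaseChange L F₀) :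
    ((h19AutHom F₀ σ • x : laurentBaseChange L F₀) : LaurentSeries L) =
      coeffMap ((σ.restrictScalars ℚ : L ≃ₐ[ℚ] L) : L →+* L) (x : LaurentSeries L) := rfl

variable {F₀}

/-- functions with rational coefficients are fixed. -/
theorem h19_autHom_smul_coeffEmb (σ : L ≃ₐ[K] L) {x₀ : LaurentSeries ℚ} (hx₀ : x₀ ∈ F₀) :
    h19AutHom F₀ σ • (⟨coeffEmb L x₀, coeffEmb_mem_laurentBaseChange L hx₀⟩ :
        laurentBaseChange L F₀) = ⟨coeffEmb L x₀, coeffEmb_mem_laurentBaseChange L hx₀⟩ := by
  apply Subtype.ext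
  rw [h19_coe_autHom_smul]
  exact coeffMap_coeffEmb _ x₀

/-- **values are equivariant**: `ord_{σP} (x - σ c) = ord_P (x - c)` for `x` with rational
coefficients. -/
theorem h19_value_smul (σ : L ≃ₐ[K] L) (P : Place L (laurentBaseChange L F₀))
    {x₀ : LaurentSeries ℚ} (hx₀ : x₀ ∈ F₀) (c : L) :
    (h19AutHom F₀ σ • P).ord
        ((⟨coeffEmb L x₀, coeffEmb_mem_laurentBaseChange L hx₀⟩ : laurentBaseChange L F₀) -
          algebraMap L (laurentBaseChange L F₀) (σ c)) =
      P.ord ((⟨coeffEmb L x₀, coeffEmb_mem_laurentBaseChange L hx₀⟩ :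
        laurentBaseChange L F₀) - algebraMap L (laurentBaseChange L F₀) c) := by
  have h := h19_ord_smul_sub (h19AutHom F₀ σ) P
    (⟨coeffEmb L x₀, coeffEmb_mem_laurentBaseChange L hx₀⟩ : laurentBaseChange L F₀) c
  rw [h19_autHom_smul_coeffEmb σ hx₀] at h
  exact h

/-- **poles are equivariant**. -/
theorem h19_pole_smul (σ : L ≃ₐ[K] L) (P : Place L (laurentBaseChange L F₀))
    {x₀ : LaurentSeries ℚ} (hx₀ : x₀ ∈ F₀) :
    (h19AutHom F₀ σ • P).ord
        (⟨coeffEmb L x₀, coeffEmb_mem_laurentBaseChange L hx₀⟩ : laurentBaseChange L F₀) =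
      P.ord (⟨coeffEmb L x₀, coeffEmb_mem_laurentBaseChange L hx₀⟩ :
        laurentBaseChange L F₀) := by
  have h := SemilinearAut.ord_smul (h19AutHom F₀ σ) P
    (⟨coeffEmb L x₀, coeffEmb_mem_laurentBaseChange L hx₀⟩ : laurentBaseChange L F₀)
  rw [h19_autHom_smul_coeffEmb σ hx₀] at h
  exact h

variable [IsAlgClosed L] [CharZero L]

/-- **A place fixed by a finite-index subgroup of `Aut(L/K)` has algebraic values**: if
`σ • P = P` for all `σ` in a finite-index subgroup and `x` (with rational coefficients) has the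
value `c` at `P`, then `c` is algebraic over `K`. -/
theorem h19_value_isAlgebraic (U : Subgroup (L ≃ₐ[K] L)) (hU : U.index ≠ 0)
    (P : Place L (laurentBaseChange L F₀)) (hP : ∀ σ ∈ U, h19AutHom F₀ σ • P = P)
    {x₀ : LaurentSeries ℚ} (hx₀ : x₀ ∈ F₀) (c : L)
    (hc : 0 < P.ord ((⟨coeffEmb L x₀, coeffEmb_mem_laurentBaseChange L hx₀⟩ :
      laurentBaseChange L F₀) - algebraMap L (laurentBaseChange L F₀) c)) :
    IsAlgebraic K c := by
  refine h19_isAlgebraic_of_subgroup U hU c fun σ hσ => ?_
  have h1 := h19_value_smul σ P hx₀ c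
  rw [hP σ hσ] at h1
  have hc' : 0 < P.ord ((⟨coeffEmb L x₀, coeffEmb_mem_laurentBaseChange L hx₀⟩ :
      laurentBaseChange L F₀) - algebraMap L (laurentBaseChange L F₀) (σ c)) := by
    rw [h1]
    exact hc
  exact Fermat.Agent.S24.RH.eq_of_ord_sub_pos P hc' hc

/-- **The places in the support of a divisor fixed by a finite-index subgroup have algebraic
values.** -/
theorem h19_support_value_isAlgebraic (U : Subgroup (L ≃ₐ[K] L)) (hU : U.index ≠ 0)
    (D : Divisor L (laurentBaseChange L F₀)) (hD : ∀ σ ∈ U, h19AutHom F₀ σ • D = D)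
    (P : Place L (laurentBaseChange L F₀)) (hP : D P ≠ 0)
    {x₀ : LaurentSeries ℚ} (hx₀ : x₀ ∈ F₀) (c : L)
    (hc : 0 < P.ord ((⟨coeffEmb L x₀, coeffEmb_mem_laurentBaseChange L hx₀⟩ :
      laurentBaseChange L F₀) - algebraMap L (laurentBaseChange L F₀) c)) :
    IsAlgebraic K c := by
  classical
  letI : MulAction (L ≃ₐ[K] L) (Place L (laurentBaseChange L F₀)) :=
    MulAction.compHom _ (h19AutHom F₀)
  have hS : ∀ σ ∈ U, ∀ Q ∈ D.support, σ • Q ∈ D.support := by
    intro σ hσ Q hQ
    rw [Finsupp.mem_support_iff] at hQ ⊢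
    have h1 : (h19AutHom F₀ σ • D) (h19AutHom F₀ σ • Q) = D Q :=
      SemilinearAut.divisor_smul_apply_smul _ D Q
    rw [hD σ hσ] at h1
    show D (h19AutHom F₀ σ • Q) ≠ 0
    rw [h1]
    exact hQ
  obtain ⟨U', hU', -, hfix⟩ := h19_exists_stabiliser U hU D.support hS
  exact h19_value_isAlgebraic U' hU' P
    (fun σ hσ => hfix σ hσ P (Finsupp.mem_support_iff.2 hP)) hx₀ c hc

end Modular

end Fermat.Agent.S42x.Desc.H19
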