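import Mathlib
import Fermat.Prelude.Def_AlgebraicCurve_BaseChangeGalois
import Fermat.Prelude.Def_AlgebraicCurve_Repartitions

/-!
# W7 (B3b) (helper24): a Galois-fixed effective divisor in a divisor class with finite orbit

`F / K` a function field of one variable with principal divisors, all of whose places are
`K`-rational (`hrat`; e.g. `K` algebraically closed).  `H` a group of semilinear automorphisms
of `F / K`, `R` an infinite set of places fixed pointwise by `H`, `t ∈ F` non-constant with all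
its poles in `R`.

* `h24_fixed_divisor` : if the class of the divisor `D` is fixed by `H`, there are an effective
  divisor `E` and a divisor `B` supported in `R` with `E ∼ D + B` and `σ • E = E` for all
  `σ ∈ H`.
* `h24_finite_orbit` : if the class of `D` has finite orbit under a group `G ⊇ H` (fixing `R`
  pointwise), the points of `E` have finite `G`-orbits.

No Riemann-Roch and no dimension theory: `D + B` is chosen of minimal degree with
`L(D + B) ≠ 0`; then `L(D + B)` is a line.
-/

set_option autoImplicit false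
set_option linter.unusedSectionVars false
set_option linter.unusedVariables false

noncomputable section

open AlgebraicCurve WithZero

namespace Fermat.Agent.S42x.Desc.H24

variable {K F : Type*} [Field K] [Field F] [Algebra K F]

/-! ### Basic facts on `ord` -/

theorem h24w_ord_algebraMap (P : Place K F) (c : K) : P.ord (algebraMap K F c) = 0 := by
  rcases eq_or_ne c 0 with rfl | hc
  · simp
  have h1 : P.adicValuation (algebraMap K F c) ≤ 1 := P.adicValuation_algebraMap_le_one c
  have h2 : P.adicValuation (algebraMap K F c⁻¹) ≤ 1 := P.adicValuation_algebraMap_le_one c⁻¹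
  have hc' : algebraMap K F c ≠ 0 := by
    rw [Ne, map_eq_zero]
    exact hc
  rw [P.adicValuation_le_one_iff] at h1 h2
  have h3 := h1.resolve_left hc'
  have hc'' : algebraMap K F c⁻¹ ≠ 0 := by
    rw [Ne, map_eq_zero]
    exact inv_ne_zero hc
  have h4 := h2.resolve_left hc''
  rw [map_inv₀, P.ord_inv] at h4
  omega

/-- `0 ≤ ord` characterises the valuation ring. -/
theorem h24w_mem_iff (P : Place K F) (f : F) : f ∈ P.toValuationSubring ↔ 0 ≤ P.ord f := by
  constructor
  · intro hf
    have h := P.adicValuation_le_one_of_mem hf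
    rw [P.adicValuation_le_one_iff] at h
    rcases h with rfl | h
    · simp
    · exact h
  · intro h
    rcases eq_or_ne f 0 with rfl | hf
    · exact zero_mem _
    by_contra hmem
    have h1 : f⁻¹ ∈ P.toValuationSubring :=
      (P.toValuationSubring.mem_or_inv_mem f).resolve_left hmem
    have h2 := P.adicValuation_le_one_of_mem h1
    rw [P.adicValuation_le_one_iff] at h2
    have h3 := h2.resolve_left (inv_ne_zero hf)
    rw [P.ord_inv] at h3
    have h4 : P.ord f = 0 := by omega
    -- `f` is a unit of the valuation ring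
    have h5 : P.adicValuation f = 1 := by
      rw [P.adicValuation_eq_exp_neg_ord hf, h4, neg_zero, exp_zero]
    have h6 : P.adicValuation f⁻¹ = 1 := by
      rw [map_inv₀, h5, inv_one]
    have h7 := (P.adicValuation_coe_eq_one_iff ⟨f⁻¹, h1⟩).mp h6
    obtain ⟨u, hu⟩ := h7
    apply hmem
    have h8 : f = ((u⁻¹ : P.toValuationSubringˣ) : P.toValuationSubring) := by
      have h9 : ((u : P.toValuationSubring) : F) = f⁻¹ := by rw [hu]
      have h10 : (((u⁻¹ : P.toValuationSubringˣ) : P.toValuationSubring) : F)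
          * ((u : P.toValuationSubring) : F) = 1 :=
        congrArg Subtype.val (Units.inv_mul u)
      rw [h9] at h10
      have := eq_inv_of_mul_eq_one_left h10
      rw [inv_inv] at this
      exact this.symm
    rw [h8]
    exact SetLike.coe_mem _

theorem h24w_ord_add_ge (P : Place K F) (n : ℤ) {f g : F} (hf : f = 0 ∨ n ≤ P.ord f)
    (hg : g = 0 ∨ n ≤ P.ord g) : f + g = 0 ∨ n ≤ P.ord (f + g) := by
  have h1 : P.adicValuation f ≤ exp (-n) := by
    rw [P.adicValuation_le_exp_iff, neg_neg]; exact hf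
  have h2 : P.adicValuation g ≤ exp (-n) := by
    rw [P.adicValuation_le_exp_iff, neg_neg]; exact hg
  have h3 : P.adicValuation (f + g) ≤ exp (-n) :=
    (Valuation.map_add _ _ _).trans (max_le h1 h2)
  rw [P.adicValuation_le_exp_iff, neg_neg] at h3
  exact h3

theorem h24w_ord_neg (P : Place K F) (f : F) : P.ord (-f) = P.ord f := by
  unfold Place.ord
  rw [Valuation.map_neg]


/-! ### Rational places have degree one -/

theorem h24w_residue_surjective (P : Place K F)
    (hP : ∀ f : F, 0 ≤ P.ord f →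
      ∃ c : K, f = algebraMap K F c ∨ 0 < P.ord (f - algebraMap K F c)) :
    Function.Surjective (algebraMap K P.ResidueField) := by
  intro x
  obtain ⟨y, rfl⟩ := IsLocalRing.residue_surjective x
  obtain ⟨c, hc⟩ := hP (y : F) ((h24w_mem_iff P _).mp y.2)
  refine ⟨c, ?_⟩
  rw [IsScalarTower.algebraMap_apply K P.toValuationSubring P.ResidueField,
    IsLocalRing.ResidueField.algebraMap_eq]
  rcases hc with hc | hc
  · congr 1
    apply Subtype.ext
    rw [hc]
    rfl
  · rw [← sub_eq_zero, ← map_sub, IsLocalRing.residue_eq_zero_iff]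
    rw [IsLocalRing.mem_maximalIdeal, mem_nonunits_iff]
    intro hu
    obtain ⟨u, hu⟩ := hu
    have h1 := P.ord_coe_unit u
    rw [hu] at h1
    have h2 : ((algebraMap K P.toValuationSubring c - y : P.toValuationSubring) : F)
        = -((y : F) - algebraMap K F c) := by
      push_cast
      rw [Place.coe_algebraMap]
      ring
    rw [h2, h24w_ord_neg] at h1
    omega

theorem h24w_deg_eq_one (P : Place K F)
    (hP : ∀ f : F, 0 ≤ P.ord f →
      ∃ c : K, f = algebraMap K F c ∨ 0 < P.ord (f - algebraMap K F c)) :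
    P.deg = 1 := by
  unfold Place.deg
  have hsurj := h24w_residue_surjective P hP
  have hinj : Function.Injective (algebraMap K P.ResidueField) :=
    (algebraMap K P.ResidueField).injective
  let e : K ≃ₗ[K] P.ResidueField :=
    LinearEquiv.ofBijective (Algebra.linearMap K P.ResidueField) ⟨hinj, hsurj⟩
  rw [← e.finrank_eq, Module.finrank_self]

/-! ### Degrees -/

theorem h24w_degree_eq_sum (D : Divisor K F) :
    Divisor.degree D = D.sum (fun v n => n * (v.deg : ℤ)) := by
  unfold Divisor.degree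
  rw [Finsupp.liftAddHom_apply]
  rfl

theorem h24w_degree_nonneg (D : Divisor K F) (hD : ∀ P, 0 ≤ D P) : 0 ≤ Divisor.degree D := by
  rw [h24w_degree_eq_sum]
  apply Finset.sum_nonneg
  intro P _
  exact mul_nonneg (hD P) (Int.natCast_nonneg _)

section Principal

variable [HasPrincipalDivisors K F]

/-- the divisor of a non-zero function -/
def h24wDiv (f : F) (hf : f ≠ 0) : Divisor K F :=
  (HasPrincipalDivisors.exists_divisor (K := K) f hf).choose

theorem h24wDiv_apply (f : F) (hf : f ≠ 0) (P : Place K F) :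
    h24wDiv (K := K) f hf P = P.ord f :=
  (HasPrincipalDivisors.exists_divisor (K := K) f hf).choose_spec.1 P

theorem h24wDiv_degree (f : F) (hf : f ≠ 0) :
    Divisor.degree (h24wDiv (K := K) f hf) = 0 :=
  (HasPrincipalDivisors.exists_divisor (K := K) f hf).choose_spec.2

theorem h24w_finite_ord_ne (f : F) (hf : f ≠ 0) : {P : Place K F | P.ord f ≠ 0}.Finite := by
  refine (h24wDiv (K := K) f hf).support.finite_toSet.subset ?_
  intro P hP
  rw [Finset.mem_coe, Finsupp.mem_support_iff, h24wDiv_apply]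
  exact hP

/-- `L(D) ≠ 0` forces `deg D ≥ 0`. -/
theorem h24w_degree_nonneg_of_mem (D : Divisor K F) (f : F) (hf : f ≠ 0)
    (hfD : ∀ P : Place K F, -D P ≤ P.ord f) : 0 ≤ Divisor.degree D := by
  have h1 : 0 ≤ Divisor.degree (D + h24wDiv (K := K) f hf) := by
    apply h24w_degree_nonneg
    intro P
    rw [Finsupp.add_apply, h24wDiv_apply]
    have := hfD P
    omega
  rw [map_add, h24wDiv_degree, add_zero] at h1
  exact h1

end Principal

section Line

variable [HasPrincipalDivisors K F]

/-- evaluation at a rational place: two functions regular at `Q`, the first a unit there. -/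
theorem h24w_eval (Q : Place K F)
    (hQ : ∀ f : F, 0 ≤ Q.ord f →
      ∃ c : K, f = algebraMap K F c ∨ 0 < Q.ord (f - algebraMap K F c))
    (f₁ f₂ : F) (hf₁ : f₁ ≠ 0) (h1 : Q.ord f₁ = 0) (h2 : 0 ≤ Q.ord f₂) :
    ∃ c : K, f₂ = algebraMap K F c * f₁ ∨ 0 < Q.ord (f₂ - algebraMap K F c * f₁) := by
  rcases eq_or_ne f₂ 0 with rfl | hf₂
  · exact ⟨0, Or.inl (by simp)⟩
  have h3 : 0 ≤ Q.ord (f₂ * f₁⁻¹) := by
    rw [Q.ord_mul hf₂ (inv_ne_zero hf₁), Q.ord_inv, h1]
    omega
  obtain ⟨c, hc | hc⟩ := hQ _ h3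
  · refine ⟨c, Or.inl ?_⟩
    rw [← hc, mul_assoc, inv_mul_cancel₀ hf₁, mul_one]
  · refine ⟨c, ?_⟩
    by_cases h0 : f₂ * f₁⁻¹ - algebraMap K F c = 0
    · left
      rw [sub_eq_zero] at h0
      rw [← h0, mul_assoc, inv_mul_cancel₀ hf₁, mul_one]
    · right
      have e : f₂ - algebraMap K F c * f₁ = (f₂ * f₁⁻¹ - algebraMap K F c) * f₁ := by
        rw [sub_mul, mul_assoc, inv_mul_cancel₀ hf₁, mul_one]
      rw [e, Q.ord_mul h0 hf₁, h1]
      omega

/-- **The line.** Among the divisors `D + B`, `B` supported in the infinite set `R` of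
rational places, with `L(D + B) ≠ 0`, one of minimal degree has `L(D + B)` of dimension one. -/
theorem h24w_line
    (hrat : ∀ (P : Place K F) (f : F), 0 ≤ P.ord f →
      ∃ c : K, f = algebraMap K F c ∨ 0 < P.ord (f - algebraMap K F c))
    (R : Set (Place K F)) (hR : R.Infinite) (D : Divisor K F)
    (hne : ∃ (B : Divisor K F) (f : F), (∀ P, B P ≠ 0 → P ∈ R) ∧ f ≠ 0 ∧
      f ∈ riemannRochSpace (D + B)) :
    ∃ (B : Divisor K F) (f₁ : F), (∀ P, B P ≠ 0 → P ∈ R) ∧ f₁ ≠ 0 ∧
      f₁ ∈ riemannRochSpace (D + B) ∧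
      ∀ f₂ ∈ riemannRochSpace (D + B), ∃ c : K, f₂ = algebraMap K F c * f₁ := by
  classical
  let p : ℕ → Prop := fun n => ∃ (B : Divisor K F) (f : F), (∀ P, B P ≠ 0 → P ∈ R) ∧ f ≠ 0 ∧
      f ∈ riemannRochSpace (D + B) ∧ Divisor.degree (D + B) = (n : ℤ)
  have hmemL : ∀ (D' : Divisor K F) (f : F), f ≠ 0 → f ∈ riemannRochSpace D' →
      ∀ P : Place K F, -D' P ≤ P.ord f := by
    intro D' f hf hfD P
    exact ((mem_riemannRochSpace_iff.mp hfD) P).resolve_left hf
  have hex : ∃ n, p n := by
    obtain ⟨B, f, hB, hf, hfL⟩ := hne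
    have h0 := h24w_degree_nonneg_of_mem (D + B) f hf (hmemL _ f hf hfL)
    exact ⟨(Divisor.degree (D + B)).toNat, B, f, hB, hf, hfL, (Int.toNat_of_nonneg h0).symm⟩
  obtain ⟨B, f₁, hB, hf₁, hf₁L, hdeg⟩ := Nat.find_spec hex
  refine ⟨B, f₁, hB, hf₁, hf₁L, ?_⟩
  intro f₂ hf₂L
  -- choose `Q ∈ R` off the support of `D + B` and of `div f₁`
  have hfin : (((D + B).support ∪ (h24wDiv (K := K) f₁ hf₁).support :
      Finset (Place K F)) : Set (Place K F)).Finite := Finset.finite_toSet _
  obtain ⟨Q, hQR, hQ⟩ := (hR.sdiff hfin).nonempty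
  rw [Finset.mem_coe, Finset.mem_union, not_or, Finsupp.mem_support_iff,
    Finsupp.mem_support_iff, not_not, not_not, h24wDiv_apply] at hQ
  obtain ⟨hQD, hQf⟩ := hQ
  have h2 : 0 ≤ Q.ord f₂ := by
    rcases (mem_riemannRochSpace_iff.mp hf₂L) Q with h | h
    · rw [h]; simp
    · rw [hQD] at h
      omega
  obtain ⟨c, hc | hc⟩ := h24w_eval Q (hrat Q) f₁ f₂ hf₁ hQf h2
  · exact ⟨c, hc⟩
  · exfalso
    set g := f₂ - algebraMap K F c * f₁ with hg
    have hg0 : g ≠ 0 := by
      intro h0
      rw [h0] at hc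
      simp at hc
    have hgL : g ∈ riemannRochSpace (D + B) := by
      have h3 : algebraMap K F c * f₁ ∈ riemannRochSpace (D + B) := by
        have := (riemannRochSpace (D + B)).smul_mem c hf₁L
        rwa [Algebra.smul_def] at this
      exact (riemannRochSpace (D + B)).sub_mem hf₂L h3
    have hgL' : g ∈ riemannRochSpace (D + (B - Finsupp.single Q 1)) := by
      rw [mem_riemannRochSpace_iff]
      intro P
      right
      by_cases hPQ : P = Q
      · subst hPQ
        rw [Finsupp.add_apply, Finsupp.sub_apply, Finsupp.single_eq_same]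
        rw [Finsupp.add_apply] at hQD
        omega
      · have h4 := hmemL _ g hg0 hgL P
        rw [Finsupp.add_apply, Finsupp.sub_apply, Finsupp.single_eq_of_ne hPQ, sub_zero]
        rw [Finsupp.add_apply] at h4
        exact h4
    have hB' : ∀ P, (B - Finsupp.single Q 1 : Divisor K F) P ≠ 0 → P ∈ R := by
      intro P hP
      by_cases hPQ : P = Q
      · rw [hPQ]; exact hQR
      · rw [Finsupp.sub_apply, Finsupp.single_eq_of_ne hPQ, sub_zero] at hP
        exact hB P hP
    have hdeg' : Divisor.degree (D + (B - Finsupp.single Q 1))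
        = ((Nat.find hex : ℕ) : ℤ) - 1 := by
      have e : D + (B - Finsupp.single Q 1) = (D + B) - Finsupp.single Q 1 := by abel
      rw [e, map_sub, hdeg, Divisor.degree_single, h24w_deg_eq_one Q (hrat Q)]
      simp
    have h5 := h24w_degree_nonneg_of_mem _ g hg0 (hmemL _ g hg0 hgL')
    rw [hdeg'] at h5
    have h6 : 1 ≤ Nat.find hex := by omega
    have h7 : p (Nat.find hex - 1) := by
      refine ⟨B - Finsupp.single Q 1, g, hB', hg0, hgL', ?_⟩
      rw [hdeg']
      omega
    exact Nat.find_min hex (by omega) h7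

end Line

section Fixed

variable [HasPrincipalDivisors K F]

/-- a divisor supported in a pointwise fixed set is fixed -/
theorem h24w_smul_eq_of_supp (σ : SemilinearAut K F) (R : Set (Place K F))
    (hfix : ∀ P ∈ R, σ • P = P) (B : Divisor K F) (hB : ∀ P, B P ≠ 0 → P ∈ R) :
    σ • B = B := by
  ext P
  rw [SemilinearAut.divisor_smul_apply]
  by_cases hP : P ∈ R
  · have h1 : σ⁻¹ • P = P := by
      have := hfix P hP
      rw [inv_smul_eq_iff]
      exact this.symm
    rw [h1]
  · have h1 : B P = 0 := by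
      by_contra h
      exact hP (hB P h)
    have h2 : B (σ⁻¹ • P) = 0 := by
      by_contra h
      have h3 := hB _ h
      have h4 := hfix _ h3
      rw [smul_inv_smul] at h4
      rw [h4] at hP
      exact hP h3
    rw [h1, h2]

theorem h24w_ord_smul' (σ : SemilinearAut K F) (P : Place K F) (f : F) :
    P.ord (σ • f) = (σ⁻¹ • P).ord f := by
  have h := SemilinearAut.ord_smul σ (σ⁻¹ • P) f
  rw [smul_inv_smul] at h
  exact h

/-- **(F1), with a given non-zero section.** -/
theorem h24_fixed_divisor_of_ne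
    (hrat : ∀ (P : Place K F) (f : F), 0 ≤ P.ord f →
      ∃ c : K, f = algebraMap K F c ∨ 0 < P.ord (f - algebraMap K F c))
    (H : Subgroup (SemilinearAut K F))
    (R : Set (Place K F)) (hR : R.Infinite) (hfix : ∀ σ ∈ H, ∀ P ∈ R, σ • P = P)
    (D : Divisor K F) (hD : ∀ σ ∈ H, (σ • D - D).IsPrincipal)
    (hne : ∃ (B : Divisor K F) (f : F), (∀ P, B P ≠ 0 → P ∈ R) ∧ f ≠ 0 ∧
      f ∈ riemannRochSpace (D + B)) :
    ∃ E B : Divisor K F, (∀ P, B P ≠ 0 → P ∈ R) ∧ (∀ P, 0 ≤ E P) ∧
      (E - (D + B)).IsPrincipal ∧ ∀ σ ∈ H, σ • E = E := by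
  obtain ⟨B, f₁, hB, hf₁, hf₁L, hline⟩ := h24w_line hrat R hR D hne
  have hmem : ∀ P : Place K F, -(D + B) P ≤ P.ord f₁ := fun P =>
    ((mem_riemannRochSpace_iff.mp hf₁L) P).resolve_left hf₁
  refine ⟨h24wDiv (K := K) f₁ hf₁ + (D + B), B, hB, ?_, ?_, ?_⟩
  · intro P
    rw [Finsupp.add_apply, h24wDiv_apply]
    have := hmem P
    omega
  · refine ⟨f₁, hf₁, fun P => ?_⟩
    rw [add_sub_cancel_right, h24wDiv_apply]
  · intro σ hσ
    obtain ⟨h, hh0, hh⟩ := hD σ hσ
    have hσB : σ • B = B := h24w_smul_eq_of_supp σ R (hfix σ hσ) B hB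
    have hσf : σ • f₁ ≠ 0 := by
      intro h0
      apply hf₁
      have := congrArg (fun x => σ⁻¹ • x) h0
      simpa using this
    -- `h * σ f₁ ∈ L(D + B)`
    have hhD : ∀ P : Place K F, P.ord h = D (σ⁻¹ • P) - D P := by
      intro P
      rw [← hh P, Finsupp.sub_apply, SemilinearAut.divisor_smul_apply]
    have hBσ : ∀ P : Place K F, B (σ⁻¹ • P) = B P := by
      intro P
      have := congrArg (fun X : Divisor K F => X P) hσB
      simp only [SemilinearAut.divisor_smul_apply] at this
      exact this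
    have hL : h * σ • f₁ ∈ riemannRochSpace (D + B) := by
      rw [mem_riemannRochSpace_iff]
      intro P
      right
      rw [P.ord_mul hh0 hσf, h24w_ord_smul', hhD P, Finsupp.add_apply]
      have := hmem (σ⁻¹ • P)
      rw [Finsupp.add_apply, hBσ P] at this
      omega
    obtain ⟨c, hc⟩ := hline _ hL
    have hc0 : c ≠ 0 := by
      rintro rfl
      rw [map_zero, zero_mul] at hc
      exact mul_ne_zero hh0 hσf hc
    have hcF : algebraMap K F c ≠ 0 := by
      rw [Ne, map_eq_zero]; exact hc0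
    have key : ∀ P : Place K F, P.ord h + (σ⁻¹ • P).ord f₁ = P.ord f₁ := by
      intro P
      have h1 := congrArg P.ord hc
      rw [P.ord_mul hh0 hσf, h24w_ord_smul', P.ord_mul hcF hf₁, h24w_ord_algebraMap,
        zero_add] at h1
      exact h1
    ext P
    rw [SemilinearAut.divisor_smul_apply]
    simp only [Finsupp.add_apply, h24wDiv_apply]
    have h1 := key P
    have h2 := hhD P
    have h3 := hBσ P
    omega

end Fixed

section Section

variable [HasPrincipalDivisors K F]

/-- **Existence of a non-zero section**: for `t` non-constant with all poles in `R`, there is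
`B` supported in `R` with `L(D + B) ≠ 0`. -/
theorem h24w_exists_section
    (hrat : ∀ (P : Place K F) (f : F), 0 ≤ P.ord f →
      ∃ c : K, f = algebraMap K F c ∨ 0 < P.ord (f - algebraMap K F c))
    (R : Set (Place K F)) (D : Divisor K F) (t : F) (ht : ∀ c : K, t ≠ algebraMap K F c)
    (hpole : ∀ P : Place K F, P.ord t < 0 → P ∈ R) :
    ∃ (B : Divisor K F) (f : F), (∀ P, B P ≠ 0 → P ∈ R) ∧ f ≠ 0 ∧
      f ∈ riemannRochSpace (D + B) := by
  classical
  -- the local equations `u P = t - t(P)`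
  have hex : ∀ P : Place K F, ∃ c : K, 0 ≤ P.ord t → 0 < P.ord (t - algebraMap K F c) := by
    intro P
    by_cases h : 0 ≤ P.ord t
    · obtain ⟨c, hc | hc⟩ := hrat P t h
      · exact absurd hc (ht c)
      · exact ⟨c, fun _ => hc⟩
    · exact ⟨0, fun h' => absurd h' h⟩
  choose c hc using hex
  let u : Place K F → F := fun P => t - algebraMap K F (c P)
  have hu0 : ∀ P, u P ≠ 0 := fun P h => ht (c P) (sub_eq_zero.mp h)
  let m : Place K F → ℕ := fun P => (-D P).toNat
  let S : Finset (Place K F) := D.support.filter (fun P => P ∉ R ∧ D P < 0)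
  let f : F := ∏ P ∈ S, u P ^ m P
  have hf0 : f ≠ 0 := Finset.prod_ne_zero_iff.mpr (fun P _ => pow_ne_zero _ (hu0 P))
  -- regularity of the `u P` off `R`
  have hreg : ∀ Q : Place K F, Q ∉ R → ∀ P, Q.adicValuation (u P) ≤ 1 := by
    intro Q hQ P
    have h1 : 0 ≤ Q.ord t := by
      by_contra h
      exact hQ (hpole Q (not_le.mp h))
    have h2 : t ∈ Q.toValuationSubring := (h24w_mem_iff Q t).mpr h1
    have h3 : u P ∈ Q.toValuationSubring := sub_mem h2 (Q.algebraMap_mem' (c P))
    exact Q.adicValuation_le_one_of_mem h3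
  have hval : ∀ Q : Place K F, Q.adicValuation f = ∏ P ∈ S, Q.adicValuation (u P) ^ m P := by
    intro Q
    simp only [f, map_prod, map_pow]
  have hfle : ∀ Q : Place K F, Q ∉ R → Q.adicValuation f ≤ 1 := by
    intro Q hQ
    rw [hval]
    exact Finset.prod_le_one' (fun P _ => pow_le_one' (hreg Q hQ P) _)
  have hfS : ∀ Q ∈ S, Q.adicValuation f ≤ exp (D Q) := by
    intro Q hQS
    have hQ := (Finset.mem_filter.mp hQS).2
    rw [hval, ← Finset.mul_prod_erase S _ hQS]
    have h1 : ∏ P ∈ S.erase Q, Q.adicValuation (u P) ^ m P ≤ 1 :=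
      Finset.prod_le_one' (fun P _ => pow_le_one' (hreg Q hQ.1 P) _)
    have h2 : Q.adicValuation (u Q) ≤ exp (-1) := by
      rw [Q.adicValuation_le_exp_iff]
      right
      have h3 : 0 ≤ Q.ord t := by
        by_contra h
        exact hQ.1 (hpole Q (not_le.mp h))
      have h5 : 0 < Q.ord (u Q) := hc Q h3
      omega
    have h4 : Q.adicValuation (u Q) ^ m Q ≤ exp (D Q) := by
      calc Q.adicValuation (u Q) ^ m Q ≤ exp (-1) ^ m Q := pow_le_pow_left' h2 _
        _ = exp (D Q) := by
          rw [← exp_nsmul]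
          congr 1
          have : ((m Q : ℕ) : ℤ) = -D Q := Int.toNat_of_nonneg (by have := hQ.2; omega)
          rw [nsmul_eq_mul, this]
          ring
    calc Q.adicValuation (u Q) ^ m Q * ∏ P ∈ S.erase Q, Q.adicValuation (u P) ^ m P
        ≤ exp (D Q) * 1 := mul_le_mul' h4 h1
      _ = exp (D Q) := mul_one _
  refine ⟨Finsupp.filter (fun P => P ∈ R) (-(D + h24wDiv (K := K) f hf0)), f, ?_, hf0, ?_⟩
  · intro P hP
    by_contra hPR
    exact hP (Finsupp.filter_apply_neg _ _ hPR)
  · rw [mem_riemannRochSpace_iff]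
    intro Q
    right
    rw [Finsupp.add_apply]
    by_cases hQR : Q ∈ R
    · rw [Finsupp.filter_apply_pos _ _ hQR, Finsupp.neg_apply, Finsupp.add_apply,
        h24wDiv_apply]
      omega
    · rw [Finsupp.filter_apply_neg _ _ hQR, add_zero]
      by_cases hDQ : D Q < 0
      · have hQS : Q ∈ S := by
          rw [Finset.mem_filter, Finsupp.mem_support_iff]
          exact ⟨by omega, hQR, hDQ⟩
        have := hfS Q hQS
        rw [Q.adicValuation_le_exp_iff] at this
        exact this.resolve_left hf0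
      · have := hfle Q hQR
        rw [Q.adicValuation_le_one_iff] at this
        have := this.resolve_left hf0
        omega

end Section

section Final

variable [HasPrincipalDivisors K F]

/-- **(F1)** a fixed effective divisor in a fixed class. -/
theorem h24_fixed_divisor
    (hrat : ∀ (P : Place K F) (f : F), 0 ≤ P.ord f →
      ∃ c : K, f = algebraMap K F c ∨ 0 < P.ord (f - algebraMap K F c))
    (H : Subgroup (SemilinearAut K F))
    (R : Set (Place K F)) (hR : R.Infinite) (hfix : ∀ σ ∈ H, ∀ P ∈ R, σ • P = P)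
    (t : F) (ht : ∀ c : K, t ≠ algebraMap K F c) (hpole : ∀ P : Place K F, P.ord t < 0 → P ∈ R)
    (D : Divisor K F) (hD : ∀ σ ∈ H, (σ • D - D).IsPrincipal) :
    ∃ E B : Divisor K F, (∀ P, B P ≠ 0 → P ∈ R) ∧ (∀ P, 0 ≤ E P) ∧
      (E - (D + B)).IsPrincipal ∧ ∀ σ ∈ H, σ • E = E :=
  h24_fixed_divisor_of_ne hrat H R hR hfix D hD (h24w_exists_section hrat R D t ht hpole)

omit [HasPrincipalDivisors K F] in
/-- the stabiliser of the class of `D` in `G` -/
def h24wStab (G : Subgroup (SemilinearAut K F)) (D : Divisor K F) :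
    Subgroup (SemilinearAut K F) where
  carrier := {σ | σ ∈ G ∧ σ • D - D ∈ Divisor.principal (K := K) (F := F)}
  one_mem' := ⟨G.one_mem, by rw [one_smul, sub_self]; exact zero_mem _⟩
  mul_mem' := by
    rintro σ τ ⟨hσ, hσD⟩ ⟨hτ, hτD⟩
    refine ⟨G.mul_mem hσ hτ, ?_⟩
    have e : (σ * τ) • D - D = σ • (τ • D - D) + (σ • D - D) := by
      rw [mul_smul, smul_sub]
      abel
    rw [e]
    exact add_mem (SemilinearAut.smul_mem_principal σ hτD) hσD
  inv_mem' := by
    rintro σ ⟨hσ, hσD⟩
    refine ⟨G.inv_mem hσ, ?_⟩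
    have e : σ⁻¹ • D - D = -(σ⁻¹ • (σ • D - D)) := by
      rw [smul_sub, inv_smul_smul]
      abel
    rw [e]
    exact neg_mem (SemilinearAut.smul_mem_principal σ⁻¹ hσD)

omit [HasPrincipalDivisors K F] in
theorem h24w_mem_stab (G : Subgroup (SemilinearAut K F)) (D : Divisor K F)
    (σ : SemilinearAut K F) :
    σ ∈ h24wStab G D ↔ σ ∈ G ∧ σ • D - D ∈ Divisor.principal (K := K) (F := F) := Iff.rfl

/-- **(F2)** if the class of `D` has finite orbit under `G`, it contains (up to a divisor
supported in `R`) an effective divisor all of whose points have finite `G`-orbit. -/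
theorem h24_finite_orbit
    (hrat : ∀ (P : Place K F) (f : F), 0 ≤ P.ord f →
      ∃ c : K, f = algebraMap K F c ∨ 0 < P.ord (f - algebraMap K F c))
    (G : Subgroup (SemilinearAut K F))
    (R : Set (Place K F)) (hR : R.Infinite) (hfix : ∀ σ ∈ G, ∀ P ∈ R, σ • P = P)
    (t : F) (ht : ∀ c : K, t ≠ algebraMap K F c) (hpole : ∀ P : Place K F, P.ord t < 0 → P ∈ R)
    (D : Divisor K F)
    (hfin : ∃ T : Finset (Divisor K F), ∀ σ ∈ G, ∃ D' ∈ T, (σ • D - D').IsPrincipal) :
    ∃ E B : Divisor K F, (∀ P, B P ≠ 0 → P ∈ R) ∧ (∀ P, 0 ≤ E P) ∧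
      (E - (D + B)).IsPrincipal ∧
      ∃ S : Finset (Place K F), ∀ P, E P ≠ 0 → ∀ σ ∈ G, σ • P ∈ S := by
  classical
  obtain ⟨T, hT⟩ := hfin
  obtain ⟨E, B, hB, hE, hEB, hEfix⟩ := h24_fixed_divisor hrat (h24wStab G D) R hR
    (fun σ hσ => hfix σ hσ.1) t ht hpole D (fun σ hσ => hσ.2)
  refine ⟨E, B, hB, hE, hEB, ?_⟩
  -- a representative of each class of the orbit
  have hrep : ∀ D' : Divisor K F, ∃ τ : SemilinearAut K F, τ ∈ G ∧
      ((∃ σ ∈ G, (σ • D - D').IsPrincipal) → (τ • D - D').IsPrincipal) := by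
    intro D'
    by_cases h : ∃ σ ∈ G, (σ • D - D').IsPrincipal
    · obtain ⟨σ, hσ, hσD⟩ := h
      exact ⟨σ, hσ, fun _ => hσD⟩
    · exact ⟨1, G.one_mem, fun h' => absurd h' h⟩
  choose τ hτG hτ using hrep
  refine ⟨T.biUnion (fun D' => (τ D' • E).support), ?_⟩
  intro P hP σ hσ
  obtain ⟨D', hD'T, hD'⟩ := hT σ hσ
  have h1 := hτ D' ⟨σ, hσ, hD'⟩
  have h2 : (τ D')⁻¹ * σ ∈ h24wStab G D := by
    refine ⟨G.mul_mem (G.inv_mem (hτG D')) hσ, ?_⟩
    have e : ((τ D')⁻¹ * σ) • D - D = (τ D')⁻¹ • ((σ • D - D') - (τ D' • D - D')) := by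
      rw [mul_smul, smul_sub, smul_sub, smul_sub, inv_smul_smul]
      abel
    rw [e]
    exact SemilinearAut.smul_mem_principal _ (sub_mem hD' h1)
  have h3 := hEfix _ h2
  rw [mul_smul, inv_smul_eq_iff] at h3
  rw [Finset.mem_biUnion]
  refine ⟨D', hD'T, ?_⟩
  rw [Finsupp.mem_support_iff, ← h3, SemilinearAut.divisor_smul_apply_smul]
  exact hP

end Final

end Fermat.Agent.S42x.Desc.H24
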