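import Mathlib
import Fermat.Agent.S24.H21_Surj
import Fermat.Agent.S18x.Spec.H26_Inputs

/-!
# W7 / (B3) [DESC] (helper26), part 2: the spaces `W_n` of a function field

`F` a function field of one variable over `L` (finite over `L(x)`, `x` transcendental, principal
divisors of degree `0`, all places of degree one), `fC ∈ F` non-zero, `p ≥ 1`.
`InW p n x fC u` : `p * ord_v u + ord_v fC ≥ 0` at every place `v` where `x` is regular and
`≥ -p n` at the poles of `x`.

* `inW_comb` : closed under `L`-linear combinations (non-zero ones);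
* `exists_inW` : non-empty for some `n` (`u` := a denominator of `fC` over `L[x]`);
* `ord_le_of_inW` : for `u ≠ 0` in `W_n` and every place `w`:
  `p * ord_w u + ord_w fC ≤ p * n * #(poles of x)`.
-/

set_option autoImplicit false
set_option linter.unusedSectionVars false
set_option linter.style.haveILetI false

open AlgebraicCurve IntermediateField
open scoped IntermediateField.algebraAdjoinAdjoin

noncomputable section

namespace Fermat.Agent.S42x.Desc.H26

section W

variable {L F : Type*} [Field L] [Field F] [Algebra L F]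

/-- The lower bound at the place `v`: `-p n` at the poles of `x`, `0` elsewhere. -/
def bnd (p n : ℕ) (x : F) (v : Place L F) : ℤ := if v.ord x < 0 then -((p : ℤ) * n) else 0

/-- The membership condition of `W_n`. -/
def InW (p n : ℕ) (x fC u : F) : Prop :=
  ∀ v : Place L F, bnd p n x v ≤ p * v.ord u + v.ord fC

theorem bnd_nonpos (p n : ℕ) (x : F) (v : Place L F) : bnd p n x v ≤ 0 := by
  unfold bnd
  split_ifs
  · have : (0 : ℤ) ≤ (p : ℤ) * n := by positivity
    omega
  · exact le_rfl

theorem ord_algebraMap_mul (v : Place L F) {a : L} (ha : a ≠ 0) {u : F} (hu : u ≠ 0) :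
    v.ord (algebraMap L F a * u) = v.ord u := by
  have ha' : algebraMap L F a ≠ 0 := (map_ne_zero _).mpr ha
  rw [v.ord_mul ha' hu, Fermat.Agent.S24.Orb.ord_algebraMap v ha', zero_add]

theorem inW_smul {p n : ℕ} {x fC u : F} {a : L} (ha : a ≠ 0) (hu0 : u ≠ 0)
    (hu : InW (L := L) p n x fC u) : InW (L := L) p n x fC (algebraMap L F a * u) := by
  intro v
  rw [ord_algebraMap_mul v ha hu0]
  exact hu v

theorem inW_add {p n : ℕ} {x fC u w : F} (hu0 : u ≠ 0) (hw0 : w ≠ 0) (huw : u + w ≠ 0)
    (hu : InW (L := L) p n x fC u) (hw : InW (L := L) p n x fC w) :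
    InW (L := L) p n x fC (u + w) := by
  intro v
  have h := Fermat.Agent.S24.Orb.le_ord_add v hu0 hw0 huw
  have h1 := hu v
  have h2 := hw v
  have hp : (0 : ℤ) ≤ (p : ℤ) := by positivity
  rcases le_total (v.ord u) (v.ord w) with hle | hle
  · rw [min_eq_left hle] at h
    have := mul_le_mul_of_nonneg_left h hp
    omega
  · rw [min_eq_right hle] at h
    have := mul_le_mul_of_nonneg_left h hp
    omega

/-- `W_n ∪ {0}` is closed under linear combinations. -/
theorem inW_comb {p n : ℕ} {x fC : F} (a b : L) (u w : F)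
    (hu : u = 0 ∨ InW (L := L) p n x fC u) (hw : w = 0 ∨ InW (L := L) p n x fC w)
    (hne : algebraMap L F a * u + algebraMap L F b * w ≠ 0) :
    algebraMap L F a * u + algebraMap L F b * w = 0 ∨
      InW (L := L) p n x fC (algebraMap L F a * u + algebraMap L F b * w) := by
  right
  by_cases h1 : algebraMap L F a * u = 0
  · rw [h1, zero_add] at hne ⊢
    have hb : b ≠ 0 := fun h => hne (by rw [h, map_zero, zero_mul])
    have hw0 : w ≠ 0 := fun h => hne (by rw [h, mul_zero])
    exact inW_smul hb hw0 (hw.resolve_left hw0)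
  by_cases h2 : algebraMap L F b * w = 0
  · rw [h2, add_zero] at hne ⊢
    have ha : a ≠ 0 := fun h => hne (by rw [h, map_zero, zero_mul])
    have hu0 : u ≠ 0 := fun h => hne (by rw [h, mul_zero])
    exact inW_smul ha hu0 (hu.resolve_left hu0)
  have ha : a ≠ 0 := fun h => h1 (by rw [h, map_zero, zero_mul])
  have hu0 : u ≠ 0 := fun h => h1 (by rw [h, mul_zero])
  have hb : b ≠ 0 := fun h => h2 (by rw [h, map_zero, zero_mul])
  have hw0 : w ≠ 0 := fun h => h2 (by rw [h, mul_zero])
  exact inW_add h1 h2 hne (inW_smul ha hu0 (hu.resolve_left hu0))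
    (inW_smul hb hw0 (hw.resolve_left hw0))

/-- Elements integral over `L[x]` are regular where `x` is. -/
theorem ord_nonneg_of_isIntegral (v : Place L F) {x : F} (hx : 0 ≤ v.ord x) {y : F}
    (hy : IsIntegral (Algebra.adjoin L {x}) y) : 0 ≤ v.ord y := by
  rcases eq_or_ne y 0 with rfl | hy0
  · simp
  have hxV : x ∈ v.toValuationSubring := by
    rcases eq_or_ne x 0 with rfl | hx0
    · exact zero_mem _
    · exact (Fermat.Agent.S24.Orb.mem_place_iff_ord_nonneg v hx0).mpr hx
  have hA : ∀ a ∈ Algebra.adjoin L {x}, a ∈ v.toValuationSubring := by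
    intro a ha
    rw [Algebra.adjoin_singleton_eq_range_aeval] at ha
    obtain ⟨G, rfl⟩ := ha
    exact Fermat.Agent.S24.Orb.aeval_mem_place v hxV G
  have := Fermat.Agent.S18x.Spec.H26.h26_mem_valuationSubring_of_isIntegral L
    v.toValuationSubring (Algebra.adjoin L {x}) hA hy
  exact (Fermat.Agent.S24.Orb.mem_place_iff_ord_nonneg v hy0).mp this

theorem ord_pow (v : Place L F) (u : F) (k : ℕ) : v.ord (u ^ k) = k * v.ord u := by
  have := v.ord_zpow u (k : ℤ)
  rwa [zpow_natCast] at this

/-- **`W_n` is non-empty for some `n`.** -/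
theorem exists_inW [HasPrincipalDivisors L F] (p : ℕ) (hp : 0 < p) (x : F)
    [FiniteDimensional L⟮x⟯ F] (fC : F) (hf : fC ≠ 0) :
    ∃ (n : ℕ) (u : F), u ≠ 0 ∧ InW (L := L) p n x fC u := by
  classical
  have halg : IsAlgebraic L⟮x⟯ fC := Algebra.IsAlgebraic.isAlgebraic fC
  have halg' : IsAlgebraic (Algebra.adjoin L {x}) fC :=
    (IsFractionRing.isAlgebraic_iff (Algebra.adjoin L {x}) L⟮x⟯ F).mpr halg
  obtain ⟨y, hy0, hy⟩ := halg'.exists_integral_multiple
  have hyF : (y : F) ≠ 0 := fun h => hy0 (Subtype.ext h)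
  have hyint : IsIntegral (Algebra.adjoin L {x}) (y : F) := isIntegral_algebraMap
  have hyf : IsIntegral (Algebra.adjoin L {x}) ((y : F) * fC) := hy
  -- the poles of `x`
  by_cases hx0 : x = 0
  · refine ⟨0, (y : F), hyF, fun v => ?_⟩
    have hxv : (0 : ℤ) ≤ v.ord x := by rw [hx0]; simp
    have h1 := ord_nonneg_of_isIntegral v hxv hyint
    have h2 := ord_nonneg_of_isIntegral v hxv hyf
    rw [v.ord_mul hyF hf] at h2
    have h3 := bnd_nonpos p 0 x v
    obtain ⟨q, rfl⟩ : ∃ q, p = q + 1 := ⟨p - 1, by omega⟩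
    push_cast
    nlinarith
  obtain ⟨Dx, hDx, -⟩ := HasPrincipalDivisors.exists_divisor (K := L) x hx0
  refine ⟨∑ v ∈ Dx.support, ((p : ℤ) * v.ord (y : F) + v.ord fC).natAbs, (y : F), hyF, fun v => ?_⟩
  unfold bnd
  split_ifs with hv
  · have hmem : v ∈ Dx.support := by
      rw [Finsupp.mem_support_iff, hDx]
      omega
    have hle : ((p : ℤ) * v.ord (y : F) + v.ord fC).natAbs
        ≤ ∑ v ∈ Dx.support, ((p : ℤ) * v.ord (y : F) + v.ord fC).natAbs :=
      Finset.single_le_sum (f := fun v => ((p : ℤ) * v.ord (y : F) + v.ord fC).natAbs)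
        (fun _ _ => Nat.zero_le _) hmem
    have hle' : (((p : ℤ) * v.ord (y : F) + v.ord fC).natAbs : ℤ)
        ≤ ((∑ v ∈ Dx.support, ((p : ℤ) * v.ord (y : F) + v.ord fC).natAbs : ℕ) : ℤ) := by
      exact_mod_cast hle
    have hp1 : (1 : ℤ) ≤ (p : ℤ) := by exact_mod_cast hp
    have hS : (0 : ℤ) ≤ ((∑ v ∈ Dx.support, ((p : ℤ) * v.ord (y : F) + v.ord fC).natAbs : ℕ) : ℤ) := by
      positivity
    have habs : -((p : ℤ) * v.ord (y : F) + v.ord fC) ≤ (((p : ℤ) * v.ord (y : F) + v.ord fC).natAbs : ℤ) := by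
      omega
    nlinarith
  · have hxv : (0 : ℤ) ≤ v.ord x := by omega
    have h1 := ord_nonneg_of_isIntegral v hxv hyint
    have h2 := ord_nonneg_of_isIntegral v hxv hyf
    rw [v.ord_mul hyF hf] at h2
    obtain ⟨q, rfl⟩ : ∃ q, p = q + 1 := ⟨p - 1, by omega⟩
    push_cast
    nlinarith

/-- **The orders of the elements of `W_n` are bounded above at every place.** -/
theorem ord_le_of_inW [HasPrincipalDivisors L F] (hdeg : ∀ v : Place L F, v.deg = 1)
    (p n : ℕ) (x : F) (hx0 : x ≠ 0) (fC : F) (hf : fC ≠ 0) :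
    ∃ B : ℤ, ∀ u : F, u ≠ 0 → InW (L := L) p n x fC u → ∀ w : Place L F,
      p * w.ord u + w.ord fC ≤ B := by
  classical
  obtain ⟨Dx, hDx, -⟩ := HasPrincipalDivisors.exists_divisor (K := L) x hx0
  refine ⟨(p : ℤ) * n * Dx.support.card, fun u hu0 hu w => ?_⟩
  have hg0 : u ^ p * fC ≠ 0 := mul_ne_zero (pow_ne_zero p hu0) hf
  obtain ⟨D, hD, hD0⟩ := HasPrincipalDivisors.exists_divisor (K := L) (u ^ p * fC) hg0
  have hDv : ∀ v : Place L F, D v = p * v.ord u + v.ord fC := by
    intro v
    rw [hD, v.ord_mul (pow_ne_zero p hu0) hf, ord_pow]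
  have hsum : ∑ v ∈ D.support, D v = 0 := by
    have h1 : Divisor.degree D = D.sum fun v k => k * (v.deg : ℤ) := by
      simp [Divisor.degree, Finsupp.liftAddHom_apply]
    rw [h1] at hD0
    rw [← hD0, Finsupp.sum]
    refine Finset.sum_congr rfl fun v _ => ?_
    rw [hdeg v]; simp
  -- the bound for sums of `-D v`
  have hc : ∀ v : Place L F, -D v ≤ if v ∈ Dx.support then (p : ℤ) * n else 0 := by
    intro v
    have h1 := hu v
    rw [← hDv] at h1
    unfold bnd at h1
    split_ifs at h1 with hv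
    · have hmem : v ∈ Dx.support := by
        rw [Finsupp.mem_support_iff, hDx]; omega
      rw [if_pos hmem]; omega
    · have h0 : (0 : ℤ) ≤ (p : ℤ) * n := by positivity
      split_ifs <;> omega
  have hkey : ∀ S : Finset (Place L F), ∑ v ∈ S, (-D v) ≤ (p : ℤ) * n * Dx.support.card := by
    intro S
    calc ∑ v ∈ S, (-D v) ≤ ∑ v ∈ S, (if v ∈ Dx.support then (p : ℤ) * n else 0) :=
          Finset.sum_le_sum fun v _ => hc v
      _ = ∑ v ∈ S.filter (· ∈ Dx.support), (p : ℤ) * n := by
          rw [Finset.sum_filter]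
      _ = (p : ℤ) * n * (S.filter (· ∈ Dx.support)).card := by
          rw [Finset.sum_const, nsmul_eq_mul]; ring
      _ ≤ (p : ℤ) * n * Dx.support.card := by
          have h0 : (0 : ℤ) ≤ (p : ℤ) * n := by positivity
          refine mul_le_mul_of_nonneg_left ?_ h0
          have : (S.filter (· ∈ Dx.support)).card ≤ Dx.support.card :=
            Finset.card_le_card fun v hv => (Finset.mem_filter.mp hv).2
          exact_mod_cast this
  rw [← hDv]
  by_cases hw : w ∈ D.support
  · have h1 := Finset.add_sum_erase D.support (fun v => D v) hw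
    rw [hsum] at h1
    have h2 := hkey (D.support.erase w)
    rw [Finset.sum_neg_distrib] at h2
    omega
  · rw [Finsupp.notMem_support_iff.mp hw]
    positivity

end W

end Fermat.Agent.S42x.Desc.H26
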