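import Fermat.Agent.S42x.Desc.H26_DescOrd
import Fermat.Agent.S42x.Desc.H26_DescW

/-!
# W7 / (B3) [DESC] (helper26), part 3: the abstract descent theorem

`L` a field, `F = laurentBaseChange L F₀ ⊆ L((q))` a function field of one variable over `L`,
`G` a group of automorphisms of `L` acting coefficientwise on `F`, `k₀ ⊆ L` a subset containing
every element of `L` with finitely many `G`-conjugates.  If the class of `fC ∈ Fˣ` modulo `p`-th
powers has a finite `G`-orbit, then `fC = g₁ * h ^ p` with `h ∈ Fˣ` and `g₁ ∈ F` with all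
coefficients in `k₀`.

Proof: `W_n := {u | p ord_v u + ord_v fC ≥ 0 (v no pole of x), ≥ -p n (v a pole of x)}` is a
non-zero `L`-subspace of `F` for `n ≫ 0`, the `q`-orders of its non-zero elements are bounded
above, and the element `u₀` of maximal `q`-order is unique up to a constant.  The stabiliser `H`
of the class of `fC` acts on `W_n` by `u ↦ σ(u) h_σ`, hence `σ(u₀) h_σ = c u₀`, and
`g := u₀ ^ p fC` satisfies `σ g = c ^ p g`; normalising the leading coefficient gives `g₁` fixed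
by `H`.  Every `t ∉ k₀` is moved by an element of `H` (pigeonhole).
-/

set_option autoImplicit false
set_option linter.unusedSectionVars false
set_option linter.style.haveILetI false
set_option maxHeartbeats 1000000

open AlgebraicCurve ModularCurve IntermediateField

noncomputable section

namespace Fermat.Agent.S42x.Desc.H26

section Abs

variable {L : Type*} [Field L] [Algebra ℚ L] (F₀ : IntermediateField ℚ (LaurentSeries ℚ))

/-- The `q`-order of a power. -/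
theorem qord_pow {g : ↥(laurentBaseChange L F₀)} (hg : g ≠ 0) (k : ℕ) :
    qord (g ^ k) = k * qord g := by
  induction k with
  | zero =>
    have h1 : ((1 : ↥(laurentBaseChange L F₀)) : LaurentSeries L) = 1 := rfl
    simp [qord]
  | succ k ih =>
    rw [pow_succ, qord_mul (pow_ne_zero k hg) hg, ih]
    push_cast; ring

/-- The twisted action of the stabiliser of the class of `fC` preserves `W_n`. -/
theorem inW_act (p n : ℕ) (x fC u : ↥(laurentBaseChange L F₀)) (σ : L ≃ₐ[ℚ] L)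
    (hx : act F₀ σ x = x) (h : ↥(laurentBaseChange L F₀)) (hh : h ≠ 0)
    (hσ : act F₀ σ fC = fC * h ^ p) (hf : fC ≠ 0) (hu0 : u ≠ 0)
    (hu : InW (L := L) p n x fC u) : InW (L := L) p n x fC (act F₀ σ u * h) := by
  intro v
  have h1 := hu ((arithmeticGalois F₀ σ)⁻¹ • v)
  rw [← ord_act, ← ord_act] at h1
  have h2 : bnd p n x ((arithmeticGalois F₀ σ)⁻¹ • v) = bnd p n x v := by
    unfold bnd
    rw [← ord_act, hx]
  rw [h2, hσ, v.ord_mul hf (pow_ne_zero p hh), ord_pow] at h1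
  rw [v.ord_mul (act_ne_zero F₀ σ hu0) hh]
  linarith

/-- **The abstract descent theorem.** -/
theorem desc_abs (p : ℕ) (hp : 0 < p) (G : Subgroup (L ≃ₐ[ℚ] L)) (k₀ : Set L)
    (hfix : ∀ t : L, t ∉ k₀ → ∀ m : ℕ, ∃ σ : Fin (m + 1) → (L ≃ₐ[ℚ] L),
      (∀ i, σ i ∈ G) ∧ Function.Injective fun i => σ i t)
    [HasPrincipalDivisors L ↥(laurentBaseChange L F₀)]
    (hdeg : ∀ v : Place L ↥(laurentBaseChange L F₀), v.deg = 1)
    (hnt : ∃ t : ↥(laurentBaseChange L F₀), t ≠ 0 ∧ qord t ≠ 0)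
    (x : ↥(laurentBaseChange L F₀)) (hx0 : x ≠ 0)
    [FiniteDimensional L⟮x⟯ ↥(laurentBaseChange L F₀)]
    (hxG : ∀ σ ∈ G, act F₀ σ x = x)
    (hroot : ∀ a : L, ∃ b : L, b ^ p = a)
    (fC : ↥(laurentBaseChange L F₀)) (hf : fC ≠ 0)
    (𝒮 : Finset ↥(laurentBaseChange L F₀))
    (hfin : ∀ σ ∈ G, ∃ s ∈ 𝒮, ∃ h : ↥(laurentBaseChange L F₀), h ≠ 0 ∧
      act F₀ σ fC = s * h ^ p) :
    ∃ g₁ h : ↥(laurentBaseChange L F₀), h ≠ 0 ∧
      (∀ k : ℤ, (g₁ : LaurentSeries L).coeff k ∈ k₀) ∧ fC = g₁ * h ^ p := by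
  classical
  obtain ⟨n, u₁, hu₁0, hu₁W⟩ := exists_inW (L := L) p hp x fC hf
  obtain ⟨B, hB⟩ := ord_le_of_inW (L := L) hdeg p n x hx0 fC hf
  obtain ⟨P, m, hm, hP⟩ := exists_place_qord hnt
  have hp1 : (1 : ℤ) ≤ (p : ℤ) := by exact_mod_cast hp
  -- the `q`-orders on `W_n` are bounded above
  have hbdd : ∃ b : ℤ, ∀ z : ℤ, (∃ u : ↥(laurentBaseChange L F₀), u ≠ 0 ∧
      InW (L := L) p n x fC u ∧ qord u = z) → z ≤ b := by
    refine ⟨|(m : ℤ) * B - m * P.ord fC|, ?_⟩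
    rintro z ⟨u, hu0, huW, rfl⟩
    have h1 := hB u hu0 huW P
    have h2 := hP u hu0
    have hm0 : (0 : ℤ) ≤ (m : ℤ) := by positivity
    have h3 : (p : ℤ) * qord u ≤ (m : ℤ) * B - m * P.ord fC := by
      rw [h2]
      have := mul_le_mul_of_nonneg_left h1 hm0
      linarith
    have h4 := le_abs_self ((m : ℤ) * B - m * P.ord fC)
    have h5 := abs_nonneg ((m : ℤ) * B - m * P.ord fC)
    by_contra hlt
    rw [not_le] at hlt
    nlinarith
  obtain ⟨e, ⟨u₀, hu₀0, hu₀W, hu₀e⟩, hemax⟩ :=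
    Int.exists_greatest_of_bdd hbdd ⟨qord u₁, u₁, hu₁0, hu₁W, rfl⟩
  have hmax : ∀ u : ↥(laurentBaseChange L F₀), u ≠ 0 →
      (u = 0 ∨ InW (L := L) p n x fC u) → qord u ≤ e := fun u hu0 hu =>
    hemax _ ⟨u, hu0, hu.resolve_left hu0, rfl⟩
  have hg0 : u₀ ^ p * fC ≠ 0 := mul_ne_zero (pow_ne_zero p hu₀0) hf
  have hlcg : lc (u₀ ^ p * fC) ≠ 0 := lc_ne_zero hg0
  -- the normalised element is fixed by the stabiliser of the class of `fC`
  have key : ∀ σ : L ≃ₐ[ℚ] L, σ ∈ G → ∀ h : ↥(laurentBaseChange L F₀), h ≠ 0 →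
      act F₀ σ fC = fC * h ^ p →
      act F₀ σ (algebraMap L _ (lc (u₀ ^ p * fC))⁻¹ * (u₀ ^ p * fC))
        = algebraMap L _ (lc (u₀ ^ p * fC))⁻¹ * (u₀ ^ p * fC) := by
    intro σ hσG h hh hσ
    have hu'0 : act F₀ σ u₀ * h ≠ 0 := mul_ne_zero (act_ne_zero F₀ σ hu₀0) hh
    have hu'W := inW_act F₀ p n x fC u₀ σ (hxG σ hσG) h hh hσ hf hu₀0 hu₀W
    have hqh : qord h = 0 := by
      have h1 := congrArg qord hσ
      rw [qord_act, qord_mul hf (pow_ne_zero p hh)] at h1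
      have h2 : qord (h ^ p) = p * qord h := qord_pow F₀ hh p
      rw [h2] at h1
      have h3 : (p : ℤ) * qord h = 0 := by linarith
      rcases mul_eq_zero.mp h3 with h4 | h4
      · omega
      · exact h4
    have hqu' : qord (act F₀ σ u₀ * h) = e := by
      rw [qord_mul (act_ne_zero F₀ σ hu₀0) hh, qord_act, hqh, add_zero, hu₀e]
    have hprop := eq_of_qord_eq_of_max (F := laurentBaseChange L F₀)
      (fun u => u = 0 ∨ InW (L := L) p n x fC u)
      (fun a b u v hu hv hne => inW_comb a b u v hu hv hne) e hmax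
      (Or.inr hu₀W) (Or.inr hu'W) hu₀e hqu'
    -- `u' = c u₀`
    have hlu₀ : lc u₀ ≠ 0 := lc_ne_zero hu₀0
    have hlu' : lc (act F₀ σ u₀ * h) ≠ 0 := lc_ne_zero hu'0
    set c : L := lc (act F₀ σ u₀ * h) * (lc u₀)⁻¹ with hc
    have hc0 : c ≠ 0 := mul_ne_zero hlu' (inv_ne_zero hlu₀)
    have hu'c : act F₀ σ u₀ * h = algebraMap L _ c * u₀ := by
      have hA : algebraMap L ↥(laurentBaseChange L F₀) (lc u₀) ≠ 0 := (map_ne_zero _).mpr hlu₀
      apply mul_left_cancel₀ hA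
      rw [hprop, hc, map_mul, map_inv₀]
      field_simp
    have hact : act F₀ σ (u₀ ^ p * fC) = algebraMap L _ (c ^ p) * (u₀ ^ p * fC) := by
      rw [map_mul, map_pow, hσ]
      have : act F₀ σ u₀ ^ p * (fC * h ^ p) = (act F₀ σ u₀ * h) ^ p * fC := by ring
      rw [this, hu'c, map_pow]
      ring
    have hlc : σ (lc (u₀ ^ p * fC)) = c ^ p * lc (u₀ ^ p * fC) := by
      rw [← lc_act F₀ σ, hact, lc_algebraMap_mul (pow_ne_zero p hc0) hg0]
    rw [map_mul, act_algebraMap, hact, map_inv₀, hlc, ← mul_assoc, ← map_mul]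
    congr 2
    field_simp
  -- the coefficients of the normalised element lie in `k₀`
  have hcoeff : ∀ k : ℤ,
      ((algebraMap L _ (lc (u₀ ^ p * fC))⁻¹ * (u₀ ^ p * fC) : ↥(laurentBaseChange L F₀)) :
        LaurentSeries L).coeff k ∈ k₀ := by
    intro k
    by_contra ht
    obtain ⟨σ, hσG, hσinj⟩ := hfix _ ht 𝒮.card
    choose s hs h hh hσ using fun i => hfin (σ i) (hσG i)
    have hcard : Fintype.card 𝒮 < Fintype.card (Fin (𝒮.card + 1)) := by
      rw [Fintype.card_coe, Fintype.card_fin]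
      exact Nat.lt_succ_self _
    obtain ⟨i, j, hij, hsij⟩ := Fintype.exists_ne_map_eq_of_card_lt
      (fun i => (⟨s i, hs i⟩ : 𝒮)) hcard
    have hsij' : s i = s j := congrArg Subtype.val hsij
    apply hij
    apply hσinj
    show σ i _ = σ j _
    have hτG : (σ j)⁻¹ * σ i ∈ G := G.mul_mem (G.inv_mem (hσG j)) (hσG i)
    have hτ : act F₀ ((σ j)⁻¹ * σ i) fC
        = fC * (act F₀ (σ j)⁻¹ (h i * (h j)⁻¹)) ^ p := by
      have h1 : fC = act F₀ (σ j)⁻¹ (s j * h j ^ p) := by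
        rw [← hσ j, act_inv_act]
      rw [act_mul, hσ i, hsij']
      conv_rhs => rw [h1]
      rw [← map_pow, ← map_mul]
      congr 1
      have hjp : h j ^ p ≠ 0 := pow_ne_zero p (hh j)
      rw [mul_pow, inv_pow]
      field_simp
    have hne : act F₀ (σ j)⁻¹ (h i * (h j)⁻¹) ≠ 0 :=
      act_ne_zero F₀ _ (mul_ne_zero (hh i) (inv_ne_zero (hh j)))
    have hfixed := key _ hτG _ hne hτ
    have h2 := (act_eq_self_iff F₀ _ _).mp hfixed k
    have h3 : (σ j) (((σ j)⁻¹ * σ i) (((algebraMap L _ (lc (u₀ ^ p * fC))⁻¹ * (u₀ ^ p * fC) :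
        ↥(laurentBaseChange L F₀)) : LaurentSeries L).coeff k))
        = σ i (((algebraMap L _ (lc (u₀ ^ p * fC))⁻¹ * (u₀ ^ p * fC) :
        ↥(laurentBaseChange L F₀)) : LaurentSeries L).coeff k) := by
      show (σ j) ((σ j)⁻¹ (σ i _)) = _
      exact (σ j).apply_symm_apply _
    rw [← h3, h2]
  -- conclusion
  obtain ⟨b, hb⟩ := hroot (lc (u₀ ^ p * fC))
  have hb0 : b ≠ 0 := by
    rintro rfl
    rw [zero_pow hp.ne'] at hb
    exact hlcg hb.symm
  refine ⟨algebraMap L _ (lc (u₀ ^ p * fC))⁻¹ * (u₀ ^ p * fC), algebraMap L _ b * u₀⁻¹,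
    mul_ne_zero ((map_ne_zero _).mpr hb0) (inv_ne_zero hu₀0), hcoeff, ?_⟩
  have hA : algebraMap L ↥(laurentBaseChange L F₀) (lc (u₀ ^ p * fC)) ≠ 0 :=
    (map_ne_zero _).mpr hlcg
  have hu₀p : u₀ ^ p ≠ 0 := pow_ne_zero p hu₀0
  rw [mul_pow, ← map_pow, hb, map_inv₀, inv_pow]
  generalize algebraMap L ↥(laurentBaseChange L F₀) (lc (u₀ ^ p * fC)) = A at hA ⊢
  generalize u₀ ^ p = U at hu₀p ⊢
  field_simp

end Abs

end Fermat.Agent.S42x.Desc.H26
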