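import Mathlib
import Fermat.Prelude.Def_ModularCurve_ArithmeticGalois
import Fermat.Agent.S24.H21_Surj

/-!
# W7 / (B3) [DESC] (helper26), part 1: the `q`-order on a field of Laurent series and the
coefficientwise action

`L` a field, `F ⊆ L((q))` an intermediate field.

* `qord`, `lc` : the `q`-order and the leading coefficient of an element of `F`;
* `qord_mul`, `le_qord_add`, `qord_algebraMap`, `lc_ne_zero`, `lc_mul`, `lc_algebraMap_mul`;
* `eq_of_qord_eq_of_max` : two nonzero elements of the same `q`-order in a set closed under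
  `L`-linear combinations, whose nonzero elements have `q`-order at most `e`, are proportional
  if their order is `e`;
* `exists_place_qord` : the `q`-order is `m * ord` at a place (S24 `exists_place_of_valuation`);
* for `F = laurentBaseChange L F₀` and `σ : L ≃ₐ[ℚ] L`: `act F₀ σ` (the coefficientwise action,
  = the prelude's `arithmeticRingAut`), `coeff_act`, `act_mul`, `act_inv_act`, `qord_act`,
  `lc_act`, `ord_act` (the orders at the places are permuted).
-/

set_option autoImplicit false
set_option linter.unusedSectionVars false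
set_option linter.style.haveILetI false

open AlgebraicCurve ModularCurve IntermediateField

noncomputable section

namespace Fermat.Agent.S42x.Desc.H26

section QOrd

variable {L : Type*} [Field L] {F : IntermediateField L (LaurentSeries L)}

/-- The `q`-order of an element of `F ⊆ L((q))`. -/
def qord (g : F) : ℤ := (g : LaurentSeries L).order

/-- The leading coefficient of an element of `F ⊆ L((q))`. -/
def lc (g : F) : L := (g : LaurentSeries L).coeff (g : LaurentSeries L).order

theorem lc_ne_zero {g : F} (hg : g ≠ 0) : lc g ≠ 0 := by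
  intro h
  apply hg
  apply Subtype.ext
  exact HahnSeries.coeff_order_eq_zero.mp h

theorem coe_ne_zero {g : F} (hg : g ≠ 0) : (g : LaurentSeries L) ≠ 0 := fun h =>
  hg (Subtype.ext h)

theorem qord_mul {g h : F} (hg : g ≠ 0) (hh : h ≠ 0) : qord (g * h) = qord g + qord h := by
  show ((g : LaurentSeries L) * (h : LaurentSeries L)).order = _
  refine HahnSeries.order_mul_of_ne_zero ?_
  rw [HahnSeries.leadingCoeff_eq, HahnSeries.leadingCoeff_eq]
  exact mul_ne_zero (lc_ne_zero hg) (lc_ne_zero hh)

theorem le_qord_add {g h : F} (hgh : g + h ≠ 0) : min (qord g) (qord h) ≤ qord (g + h) := by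
  show min _ _ ≤ ((g : LaurentSeries L) + (h : LaurentSeries L)).order
  exact HahnSeries.min_order_le_order_add (coe_ne_zero hgh)

theorem coe_algebraMap (a : L) :
    ((algebraMap L F a : F) : LaurentSeries L) = HahnSeries.single 0 a := by
  show algebraMap L (LaurentSeries L) a = _
  exact algebraMap_laurentSeries_eq_single L a

theorem qord_algebraMap (a : L) : qord (algebraMap L F a) = 0 := by
  rcases eq_or_ne a 0 with rfl | ha
  · simp [qord]
  · show ((algebraMap L F a : F) : LaurentSeries L).order = 0
    rw [coe_algebraMap, HahnSeries.order_single ha]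

theorem coeff_algebraMap_mul (a : L) (g : F) (k : ℤ) :
    ((algebraMap L F a * g : F) : LaurentSeries L).coeff k
      = a * (g : LaurentSeries L).coeff k := by
  show ((algebraMap L F a : F) * (g : LaurentSeries L)).coeff k = _
  rw [coe_algebraMap]
  have := HahnSeries.coeff_single_mul_add (r := a) (x := (g : LaurentSeries L)) (a := k)
    (b := (0 : ℤ))
  rwa [add_zero] at this

theorem qord_algebraMap_mul {a : L} (ha : a ≠ 0) {g : F} (hg : g ≠ 0) :
    qord (algebraMap L F a * g) = qord g := by
  rw [qord_mul ((map_ne_zero _).mpr ha) hg, qord_algebraMap, zero_add]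

theorem lc_algebraMap_mul {a : L} (ha : a ≠ 0) {g : F} (hg : g ≠ 0) :
    lc (algebraMap L F a * g) = a * lc g := by
  have h := qord_algebraMap_mul ha hg
  unfold qord at h
  unfold lc
  rw [h, coeff_algebraMap_mul]

theorem coeff_eq_zero_of_lt_qord {g : F} {k : ℤ} (hk : k < qord g) :
    (g : LaurentSeries L).coeff k = 0 :=
  HahnSeries.coeff_eq_zero_of_lt_order hk

/-- **Uniqueness of the element of maximal `q`-order** up to a constant. -/
theorem eq_of_qord_eq_of_max (W : F → Prop)
    (hW : ∀ (a b : L) (u v : F), W u → W v → algebraMap L F a * u + algebraMap L F b * v ≠ 0 →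
      W (algebraMap L F a * u + algebraMap L F b * v))
    (e : ℤ) (hmax : ∀ u : F, u ≠ 0 → W u → qord u ≤ e)
    {u v : F} (hu : W u) (hv : W v) (hue : qord u = e)
    (hve : qord v = e) :
    algebraMap L F (lc u) * v = algebraMap L F (lc v) * u := by
  by_contra hne
  have hne' : algebraMap L F (lc u) * v + algebraMap L F (-lc v) * u ≠ 0 := by
    intro h
    apply hne
    rw [map_neg, neg_mul, ← sub_eq_add_neg, sub_eq_zero] at h
    exact h
  have hWd := hW (lc u) (-lc v) v u hv hu hne'
  have hle := hmax _ hne' hWd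
  -- all coefficients of index `≤ e` vanish
  have hcoeff : ∀ k : ℤ, k ≤ e →
      ((algebraMap L F (lc u) * v + algebraMap L F (-lc v) * u : F) : LaurentSeries L).coeff k
        = 0 := by
    intro k hk
    show (((algebraMap L F (lc u) * v : F) : LaurentSeries L)
      + ((algebraMap L F (-lc v) * u : F) : LaurentSeries L)).coeff k = 0
    rw [HahnSeries.coeff_add, coeff_algebraMap_mul, coeff_algebraMap_mul]
    rcases lt_or_eq_of_le hk with hlt | rfl
    · rw [coeff_eq_zero_of_lt_qord (hve ▸ hlt), coeff_eq_zero_of_lt_qord (hue ▸ hlt)]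
      ring
    · have h1 : (v : LaurentSeries L).coeff k = lc v := by
        unfold lc; rw [← hve]; rfl
      have h2 : (u : LaurentSeries L).coeff k = lc u := by
        unfold lc; rw [← hue]; rfl
      rw [h1, h2]
      ring
  have h0 := hcoeff _ hle
  exact coe_ne_zero hne' (HahnSeries.coeff_order_eq_zero.mp h0)

/-- The `q`-order is a positive multiple of the order at a place of `F`, if some element of `F`
has non-zero `q`-order. -/
theorem exists_place_qord (hnt : ∃ t : F, t ≠ 0 ∧ qord t ≠ 0) :
    ∃ (P : Place L F) (m : ℕ), 0 < m ∧ ∀ h : F, h ≠ 0 → qord h = m * P.ord h := by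
  obtain ⟨P, m, hm, hP, -⟩ := Fermat.Agent.S24.Orb.exists_place_of_valuation (K := L) (F := F)
    (fun g => qord g) (fun f g hf hg => qord_mul hf hg)
    (fun f g _ _ hfg => le_qord_add hfg)
    (fun a _ => by rw [qord_algebraMap]) hnt
  exact ⟨P, m, hm, hP⟩

end QOrd

section Act

variable {L : Type*} [Field L] [Algebra ℚ L] (F₀ : IntermediateField ℚ (LaurentSeries ℚ))

/-- The coefficientwise action of an automorphism of `L` on `laurentBaseChange L F₀`. -/
def act (σ : L ≃ₐ[ℚ] L) : ↥(laurentBaseChange L F₀) ≃+* ↥(laurentBaseChange L F₀) :=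
  arithmeticRingAut F₀ σ

theorem coe_act (σ : L ≃ₐ[ℚ] L) (g : ↥(laurentBaseChange L F₀)) :
    ((act F₀ σ g : ↥(laurentBaseChange L F₀)) : LaurentSeries L)
      = coeffMap (σ : L →+* L) (g : LaurentSeries L) := rfl

theorem coeff_act (σ : L ≃ₐ[ℚ] L) (g : ↥(laurentBaseChange L F₀)) (k : ℤ) :
    ((act F₀ σ g : ↥(laurentBaseChange L F₀)) : LaurentSeries L).coeff k
      = σ ((g : LaurentSeries L).coeff k) := by
  rw [coe_act, coeffMap_coeff]
  rfl

theorem act_mul (σ τ : L ≃ₐ[ℚ] L) (g : ↥(laurentBaseChange L F₀)) :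
    act F₀ (σ * τ) g = act F₀ σ (act F₀ τ g) := by
  apply Subtype.ext
  ext k
  rw [coeff_act, coeff_act, coeff_act]
  rfl

theorem act_inv_act (σ : L ≃ₐ[ℚ] L) (g : ↥(laurentBaseChange L F₀)) :
    act F₀ σ⁻¹ (act F₀ σ g) = g := by
  rw [← act_mul, inv_mul_cancel]
  apply Subtype.ext
  ext k
  rw [coeff_act]
  rfl

theorem act_algebraMap (σ : L ≃ₐ[ℚ] L) (a : L) :
    act F₀ σ (algebraMap L ↥(laurentBaseChange L F₀) a)
      = algebraMap L ↥(laurentBaseChange L F₀) (σ a) :=
  arithmeticRingAut_algebraMap F₀ σ a

theorem act_ne_zero (σ : L ≃ₐ[ℚ] L) {g : ↥(laurentBaseChange L F₀)} (hg : g ≠ 0) :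
    act F₀ σ g ≠ 0 :=
  (map_ne_zero_iff _ (act F₀ σ).injective).mpr hg

theorem qord_act (σ : L ≃ₐ[ℚ] L) (g : ↥(laurentBaseChange L F₀)) :
    qord (act F₀ σ g) = qord g := by
  rcases eq_or_ne g 0 with rfl | hg
  · rw [map_zero]
  have hg' := act_ne_zero F₀ σ hg
  apply le_antisymm
  · refine HahnSeries.order_le_of_coeff_ne_zero ?_
    rw [coeff_act]
    exact (map_ne_zero_iff _ σ.injective).mpr (lc_ne_zero hg)
  · refine HahnSeries.order_le_of_coeff_ne_zero ?_
    have h := lc_ne_zero hg'
    unfold lc at h
    rw [coeff_act] at h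
    intro h0
    apply h
    have h1 : (g : LaurentSeries L).coeff (HahnSeries.order
        ((act F₀ σ g : ↥(laurentBaseChange L F₀)) : LaurentSeries L)) = 0 := h0
    rw [h1, map_zero]

theorem lc_act (σ : L ≃ₐ[ℚ] L) (g : ↥(laurentBaseChange L F₀)) :
    lc (act F₀ σ g) = σ (lc g) := by
  have h := qord_act F₀ σ g
  unfold qord at h
  unfold lc
  rw [h, coeff_act]

/-- An element all of whose coefficients are fixed by `σ` is fixed by `σ`; and conversely. -/
theorem act_eq_self_iff (σ : L ≃ₐ[ℚ] L) (g : ↥(laurentBaseChange L F₀)) :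
    act F₀ σ g = g ↔ ∀ k : ℤ, σ ((g : LaurentSeries L).coeff k) = (g : LaurentSeries L).coeff k := by
  constructor
  · intro h k
    rw [← coeff_act, h]
  · intro h
    apply Subtype.ext
    ext k
    rw [coeff_act, h]

/-- **The orders at the places are permuted by the coefficientwise action.** -/
theorem ord_act (σ : L ≃ₐ[ℚ] L) (v : Place L ↥(laurentBaseChange L F₀))
    (g : ↥(laurentBaseChange L F₀)) :
    v.ord (act F₀ σ g) = ((arithmeticGalois F₀ σ)⁻¹ • v).ord g := by
  have h := SemilinearAut.ord_smul (arithmeticGalois F₀ σ) ((arithmeticGalois F₀ σ)⁻¹ • v) g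
  rw [smul_inv_smul] at h
  rw [← h]
  rfl

end Act

end Fermat.Agent.S42x.Desc.H26
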